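import Mathlib

/-!
# P-S44, block C3, seam AS → COV/ET: `1 + π ^ p x` is a `p`-th power in the fixed field

`K` an algebraically closed field (for us `ℚ̄`), `A` a valuation subring, `ζ` a primitive `p`-th
root of unity with `π := ζ - 1` in the maximal ideal (residue characteristic `p`), `S` a set of
ring endomorphisms of `K` fixing `ζ` and acting trivially on the residue field
(`σ a - a ∈ 𝔪` for `a ∈ A`; for us `S = G₁ ≤ I`, the inertia elements fixing `ζ`).

`exists_fixed_pth_root`: for `x ∈ A` fixed by `S` there is `y ∈ A` FIXED BY `S` with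
`(1 + π y) ^ p = 1 + π ^ p x`.  No Hensel lemma: the `p` candidates `y + (ζ^i - 1)/π · (1 + π y)`
have pairwise distinct residues and `S` fixes residues.

Use: the leading coefficient `1 + π ^ p G(0)` of the Artin–Schreier normal form
`f₀ = 1 + π ^ p G` (`G` regular at the cusp `q = 0`) is a `p`-th power in `K₁ = ℚ̄^{G₁}`, so the
normalised Kummer function `f₀ / lc(f₀)` keeps the normal form with a `K₁`-rational constant.
-/

set_option autoImplicit false

namespace Fermat.Agent.S40x.R2.AS.PthRoot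

open Polynomial

variable {K : Type*} [Field K] (A : ValuationSubring K)

/-- a `p`-th root of unity has valuation one. -/
theorem valuation_eq_one_of_pow_eq_one {n : ℕ} (hn : n ≠ 0) {μ : K} (hμ : μ ^ n = 1) :
    A.valuation μ = 1 := by
  have h : A.valuation μ ^ n = 1 := by rw [← map_pow, hμ, map_one]
  exact (pow_eq_one_iff_left hn).mp h

/-- multiplying by an element of `A` does not increase the valuation. -/
theorem valuation_mul_le_of_mem {a b : K} (ha : a ∈ A) : A.valuation (a * b) ≤ A.valuation b := by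
  rw [map_mul]
  exact mul_le_of_le_one_left' ((A.valuation_le_one_iff a).2 ha)

/-- a geometric sum of powers of an element of valuation `≤ 1` lies in `A`. -/
theorem geom_sum_mem {a : K} (ha : a ∈ A) (n : ℕ) : ∑ k ∈ Finset.range n, a ^ k ∈ A :=
  A.toSubring.sum_mem fun k _ => A.toSubring.pow_mem ha k

/-- all `ζ ^ i - 1`, `p ∤ i`, have the valuation of `ζ - 1`. -/
theorem valuation_pow_sub_one {p : ℕ} (hp : p.Prime) {ζ : K} (hζ : ζ ^ p = 1) {i : ℕ}
    (hi : ¬ p ∣ i) : A.valuation (ζ ^ i - 1) = A.valuation (ζ - 1) := by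
  have hζA : ζ ∈ A := (A.valuation_le_one_iff ζ).1
    (le_of_eq (valuation_eq_one_of_pow_eq_one A hp.ne_zero hζ))
  apply le_antisymm
  · have h1 : ζ ^ i - 1 = (∑ k ∈ Finset.range i, ζ ^ k) * (ζ - 1) := (geom_sum_mul ζ i).symm
    rw [h1]
    exact valuation_mul_le_of_mem A (geom_sum_mem A hζA i)
  · have hcop : Nat.Coprime i p := ((Nat.Prime.coprime_iff_not_dvd hp).2 hi).symm
    obtain ⟨m, -, hm⟩ := Nat.exists_mul_mod_eq_one_of_coprime hcop hp.one_lt
    have h2 : (ζ ^ i) ^ m = ζ := by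
      rw [← pow_mul, pow_eq_pow_mod (i * m) hζ, hm, pow_one]
    have h3 : ζ - 1 = (∑ k ∈ Finset.range m, (ζ ^ i) ^ k) * (ζ ^ i - 1) := by
      rw [geom_sum_mul, h2]
    rw [h3]
    exact valuation_mul_le_of_mem A (geom_sum_mem A (A.toSubring.pow_mem hζA i) m)

variable [IsAlgClosed K]

/-- **the fixed `p`-th root.** -/
theorem exists_fixed_pth_root {p : ℕ} (hp : p.Prime) {ζ : K} (hζ : IsPrimitiveRoot ζ p)
    (hπ : ζ - 1 ∈ A.nonunits) (S : Set (K →+* K)) (hSζ : ∀ σ ∈ S, σ ζ = ζ)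
    (hSA : ∀ σ ∈ S, ∀ a ∈ A, σ a - a ∈ A.nonunits) {x : K} (hx : x ∈ A)
    (hSx : ∀ σ ∈ S, σ x = x) :
    ∃ y ∈ A, (∀ σ ∈ S, σ y = y) ∧ (1 + (ζ - 1) * y) ^ p = 1 + (ζ - 1) ^ p * x := by
  classical
  have : NeZero p := ⟨hp.ne_zero⟩
  set π : K := ζ - 1 with hπdef
  set v := A.valuation with hv
  have hπ0 : π ≠ 0 := hζ.sub_one_ne_zero hp.one_lt
  have hvπ : v π < 1 := A.mem_nonunits_iff.1 hπ
  have hvπpos : 0 < v π := by
    rw [zero_lt_iff]; exact (Valuation.ne_zero_iff v).2 hπ0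
  have hvx : v x ≤ 1 := (A.valuation_le_one_iff x).2 hx
  -- a `p`-th root
  obtain ⟨w0, hw0⟩ := IsAlgClosed.exists_pow_nat_eq (1 + π ^ p * x) hp.pos
  -- one of the conjugates is close to `1`
  have hprod : w0 ^ p - 1 = ∏ μ ∈ nthRootsFinset p (1 : K), (w0 - μ) := by
    have := hζ.pow_sub_pow_eq_prod_sub_mul w0 1 hp.pos
    simpa using this
  have hex : ∃ μ ∈ nthRootsFinset p (1 : K), v (w0 - μ) ≤ v π := by
    by_contra hcon
    simp only [not_exists, not_and, not_le] at hcon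
    have h1mem : (1 : K) ∈ nthRootsFinset p (1 : K) := by
      rw [mem_nthRootsFinset hp.pos]; exact one_pow p
    have hlt : ∏ _μ ∈ nthRootsFinset p (1 : K), v π
        < ∏ μ ∈ nthRootsFinset p (1 : K), v (w0 - μ) :=
      Finset.prod_lt_prod (fun _ _ => hvπpos) (fun μ hμ => (hcon μ hμ).le)
        ⟨1, h1mem, hcon 1 h1mem⟩
    rw [Finset.prod_const, hζ.card_nthRootsFinset, ← map_prod, ← hprod, hw0] at hlt
    have h2 : v (1 + π ^ p * x - 1) ≤ v π ^ p := by
      have : (1 + π ^ p * x - 1) = π ^ p * x := by ring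
      rw [this, map_mul, map_pow]
      exact mul_le_of_le_one_right' hvx
    exact absurd hlt (not_lt.2 h2)
  obtain ⟨μ, hμmem, hμ⟩ := hex
  have hμp : μ ^ p = 1 := (mem_nthRootsFinset hp.pos 1).1 hμmem
  have hμ0 : μ ≠ 0 := by
    rintro rfl
    rw [zero_pow hp.ne_zero] at hμp
    exact zero_ne_one hμp
  have hvμ : v μ = 1 := valuation_eq_one_of_pow_eq_one A hp.ne_zero hμp
  -- the good root
  set w : K := w0 / μ with hwdef
  have hwp : w ^ p = 1 + π ^ p * x := by rw [hwdef, div_pow, hμp, div_one, hw0]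
  have hw1 : v (w - 1) ≤ v π := by
    have : w - 1 = (w0 - μ) / μ := by rw [hwdef]; field_simp
    rw [this, map_div₀, hvμ, div_one]
    exact hμ
  have hvw : v w = 1 := by
    have h1 : v (1 - w) < 1 := by
      rw [← Valuation.map_neg, neg_sub]; exact lt_of_le_of_lt hw1 hvπ
    have := Valuation.map_one_sub_of_lt v h1
    rwa [sub_sub_cancel] at this
  have hw0' : w ≠ 0 := (Valuation.ne_zero_iff v).1 (by rw [hvw]; exact one_ne_zero)
  set y : K := (w - 1) / π with hydef
  have hyA : y ∈ A := by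
    rw [← A.valuation_le_one_iff, hydef, map_div₀]
    exact div_le_one_of_le₀ hw1 zero_le
  have hy1 : 1 + π * y = w := by rw [hydef]; field_simp; ring
  refine ⟨y, hyA, ?_, by rw [hy1, hwp]⟩
  intro σ hσ
  have hσπ : σ π = π := by rw [hπdef, map_sub, map_one, hSζ σ hσ]
  have hσwp : (σ w) ^ p = w ^ p := by
    rw [← map_pow, hwp, map_add, map_one, map_mul, map_pow, hσπ, hSx σ hσ]
  have hξ : (σ w / w) ^ p = 1 := by rw [div_pow, hσwp, div_self (pow_ne_zero p hw0')]
  obtain ⟨i, hip, hi⟩ := hζ.eq_pow_of_pow_eq_one hξ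
  have hσw : σ w = ζ ^ i * w := by rw [hi]; field_simp
  have hσy : σ y - y = w * ((ζ ^ i - 1) / π) := by
    rw [hydef, map_div₀, map_sub, map_one, hσπ, hσw]; field_simp; ring
  by_cases hi0 : i = 0
  · have : σ w = w := by rw [hσw, hi0, pow_zero, one_mul]
    rw [hydef, map_div₀, map_sub, map_one, hσπ, this]
  · exfalso
    have hnd : ¬ p ∣ i := fun hd => hi0 (Nat.eq_zero_of_dvd_of_lt hd hip)
    have h1 : v (σ y - y) < 1 := A.mem_nonunits_iff.1 (hSA σ hσ y hyA)
    rw [hσy, map_mul, hvw, one_mul, map_div₀,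
      valuation_pow_sub_one A hp hζ.pow_eq_one hnd, ← hπdef, div_self hvπpos.ne'] at h1
    exact lt_irrefl _ h1

end Fermat.Agent.S40x.R2.AS.PthRoot
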