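import Fermat.Agent.S40x.R2.AS.FixedKummer
import Fermat.Agent.S40x.R2.KummerFunctions
import Fermat.Agent.S40x.R2.Cover.NormRoot
import Fermat.Agent.S33x.KummerPn
import Fermat.Agent.Gateway.Hecke.Inputs

/-!
# P-S44/S40, block C3, leaf C3-AS-RAT, file 5 (helper33): a Galois-fixed Kummer function

`F = modularFunctionFieldBar N ⊆ ℚ̄((q))`, the absolute Galois group acting coefficientwise.
For ANY subgroup `Gs ≤ G_ℚ` and any class `ξ : JZero N` fixed by `Gs` having a Kummer function of
exponent `p` (`p` prime): there is a Kummer function `f0` of `ξ` FIXED by `Gs`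
(`exists_fixed_kummer`).  Instance of `FixedKummer.exists_fixed_mul_pow` (Hilbert 90 with
leading-coefficient normalisation) for `lc` = leading `q`-coefficient; the open-stabiliser and
`hdiff` inputs are helper16's `R2/KummerFunctions` (KF4, `exists_of_same_class`).
-/

set_option autoImplicit false
set_option linter.unusedSectionVars false
set_option linter.style.haveILetI false

noncomputable section

namespace Fermat.Agent.S40x.R2.AS.FixedKummerMq

open HahnSeries ModularCurve AlgebraicCurve Fermat.Agent.Gateway.Kummer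
open Fermat.Agent.S40x.R2.AS.FixedKummer Fermat.Agent.S40x.R2.Cover

local notation "Qb" => AlgebraicClosure ℚ
local notation "Γℚ" => (AlgebraicClosure ℚ ≃ₐ[ℚ] AlgebraicClosure ℚ)

variable (N : ℕ)

theorem coe_algebraMap_bar (a : Qb) :
    ((algebraMap Qb (modularFunctionFieldBar N) a : modularFunctionFieldBar N) :
      LaurentSeries Qb) = HahnSeries.single 0 a :=
  algebraMap_laurentSeries_eq_single Qb a

theorem leadingCoeff_algebraMap_bar (a : Qb) :
    ((algebraMap Qb (modularFunctionFieldBar N) a : modularFunctionFieldBar N) :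
      LaurentSeries Qb).leadingCoeff = a := by
  rw [coe_algebraMap_bar]
  exact HahnSeries.leadingCoeff_of_single

/-- the leading `q`-coefficient, valued in `F`. -/
def lcF : modularFunctionFieldBar N →*₀ modularFunctionFieldBar N where
  toFun m := algebraMap Qb (modularFunctionFieldBar N) ((m : LaurentSeries Qb).leadingCoeff)
  map_zero' := by
    show algebraMap Qb (modularFunctionFieldBar N) ((0 : LaurentSeries Qb).leadingCoeff) = 0
    rw [HahnSeries.leadingCoeff_zero, map_zero]
  map_one' := by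
    show algebraMap Qb (modularFunctionFieldBar N) ((1 : LaurentSeries Qb).leadingCoeff) = 1
    rw [HahnSeries.leadingCoeff_one, map_one]
  map_mul' x y := by
    show algebraMap Qb (modularFunctionFieldBar N)
      (((x : LaurentSeries Qb) * (y : LaurentSeries Qb)).leadingCoeff) = _
    rw [HahnSeries.leadingCoeff_mul, map_mul]

theorem lcF_apply (m : modularFunctionFieldBar N) :
    lcF N m = algebraMap Qb (modularFunctionFieldBar N) ((m : LaurentSeries Qb).leadingCoeff) :=
  rfl

/-- the coefficientwise action of a subgroup of `G_ℚ` by ring automorphisms of `F`. -/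
def actF (Gs : Subgroup Γℚ) :
    Gs →* (modularFunctionFieldBar N ≃+* modularFunctionFieldBar N) where
  toFun σ := SemilinearAut.toRingAut (arithmeticGalois (modularFunctionFieldFull N) (σ : Γℚ))
  map_one' := by
    rw [Subgroup.coe_one, map_one, SemilinearAut.toRingAut_one]
  map_mul' a b := by
    rw [Subgroup.coe_mul, map_mul, SemilinearAut.toRingAut_mul]

theorem actF_apply (Gs : Subgroup Γℚ) (σ : Gs) (m : modularFunctionFieldBar N) :
    actF N Gs σ m = arithmeticGalois (modularFunctionFieldFull N) (σ : Γℚ) • m := rfl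

/-- the leading-coefficient data of `F` with the action of `Gs`. -/
def normData (Gs : Subgroup Γℚ) {p : ℕ} {ζ : Qb} (hζ : IsPrimitiveRoot ζ p) :
    NormData (modularFunctionFieldBar N) Gs p where
  L := (algebraMap Qb (modularFunctionFieldBar N)).fieldRange
  lc := lcF N
  lc_mem m := ⟨_, rfl⟩
  lc_const c hc := by
    obtain ⟨a, rfl⟩ := hc
    rw [lcF_apply, leadingCoeff_algebraMap_bar]
  act := actF N Gs
  act_lc τ m := by
    rw [lcF_apply, lcF_apply, actF_apply, actF_apply, SemilinearAut.smul_algebraMap,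
      coe_arithmeticGalois_smul, leadingCoeff_coeffMap]
    rfl
  ζ := algebraMap Qb (modularFunctionFieldBar N) ζ
  hζ := hζ.map_of_injective (algebraMap Qb (modularFunctionFieldBar N)).injective
  hζL := ⟨ζ, rfl⟩

variable {N}

/-- **A Galois-fixed Kummer function.** -/
theorem exists_fixed_kummer [NeZero N] (Gs : Subgroup Γℚ) {p : ℕ} (hp : p.Prime) {ζ : Qb}
    (hζ : IsPrimitiveRoot ζ p) {ξ : JZero N} (hξ : ∀ σ ∈ Gs, σ • ξ = ξ)
    {u : modularFunctionFieldBar N} (hu : IsKummerRep p ξ u) :
    ∃ f0 : modularFunctionFieldBar N, IsKummerRep p ξ f0 ∧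
      ∀ σ ∈ Gs, arithmeticGalois (modularFunctionFieldFull N) σ • f0 = f0 := by
  set D := normData N Gs hζ with hD
  -- normalise `u`
  have hu0 : u ≠ 0 := hu.ne_zero
  have huL : (u : LaurentSeries Qb) ≠ 0 := fun h => hu0 (Subtype.ext h)
  have hc : (u : LaurentSeries Qb).leadingCoeff ≠ 0 := HahnSeries.leadingCoeff_ne_zero.mpr huL
  set f : modularFunctionFieldBar N :=
    algebraMap Qb (modularFunctionFieldBar N) ((u : LaurentSeries Qb).leadingCoeff)⁻¹ * u with hf
  have hfk : IsKummerRep p ξ f := hu.const_mul (inv_ne_zero hc)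
  have hf0 : f ≠ 0 := hfk.ne_zero
  have hlcf : D.lc f = 1 := by
    show lcF N f = 1
    rw [hf, map_mul, lcF_apply, lcF_apply, leadingCoeff_algebraMap_bar, ← map_mul,
      inv_mul_cancel₀ hc, map_one]
  -- open stabiliser
  obtain ⟨G0, hG0n, hG0f, hG0fix⟩ :=
    Fermat.Agent.S40x.R2.KF.exists_normal_finiteIndex_fixing (N := N) (x := (f : LaurentSeries Qb))
      f.2
  haveI := hG0n
  haveI := hG0f
  haveI : (G0.subgroupOf Gs).Normal := Subgroup.Normal.subgroupOf hG0n Gs
  have hG' : ∀ ρ ∈ G0.subgroupOf Gs, D.act ρ f = f := by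
    intro ρ hρ
    apply Subtype.ext
    show coeffMap (((ρ : Γℚ)) : Qb →+* Qb) (f : LaurentSeries Qb) = f
    exact hG0fix _ (Subgroup.mem_subgroupOf.mp hρ)
  -- the transformation law
  have hii : ∀ τ : Gs, ∃ k c : modularFunctionFieldBar N, k ≠ 0 ∧ c ∈ D.L ∧
      D.act τ f = c * f * k ^ p := by
    intro τ
    have h1 : IsKummerRep p ξ (arithmeticGalois (modularFunctionFieldFull N) (τ : Γℚ) • f) := by
      have h2 := hfk.smul (arithmeticGalois (modularFunctionFieldFull N) (τ : Γℚ))
      rwa [← galois_smul_pic0_def, hξ _ τ.2] at h2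
    obtain ⟨c, k, -, hk0, hck⟩ :=
      Fermat.Agent.S40x.R2.KF.exists_of_same_class (Fermat.Agent.S40x.R2.KF.hconst_bar N) hfk h1
    exact ⟨k, algebraMap Qb (modularFunctionFieldBar N) c, hk0, ⟨c, rfl⟩, hck⟩
  obtain ⟨g, hg0, hgfix⟩ := exists_fixed_mul_pow D hp hf0 hlcf (G0.subgroupOf Gs) hG' hii
  haveI : HasPrincipalDivisors Qb (modularFunctionFieldBar N) :=
    Fermat.Agent.Gateway.Hecke.hasPrincipalDivisors_full Qb N
  refine ⟨f * g ^ p, ?_, fun σ hσ => hgfix ⟨σ, hσ⟩⟩
  have h3 := hfk.mul (Fermat.Agent.S33x.KummerPn.isKummerRep_zero_pow (K := Qb) p hg0)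
  rwa [add_zero] at h3

end Fermat.Agent.S40x.R2.AS.FixedKummerMq
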