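import Fermat.Agent.S19x.Geo.LatticeFixed
import Fermat.Agent.Gateway.Kummer.Basic

/-!
# P-S44/S40, block C3, leaf C3-AS-RAT, file 3 (helper33): balancing a fixed Kummer function

`K` a field with a valuation subring `A`, `F/K` a function field with valuation subrings `O` (later
the two Gauss valuations `O_∞`, `O_0` of level `M q`) which are unramified over `A`
(`hscal : ∀ f ≠ 0, ∃ c ≠ 0, O.valuation (c • f) = 1`).

* `valuation_eq_one_iff`, `valuation_algebraMap_eq_one`, `unit_of_valuation_algebraMap_eq_one` :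
  constants of valuation one are the units of `A`;
* `exists_const_smul_unit` (**`hroot`**) : if `c • g ^ m` is a unit at `O₁` and at `O₂`, then a
  `K`-multiple of `g` is a unit at both;
* `valuation_smul_div_eq_one` : a semilinear automorphism `δ` preserving `O` and the valuation of
  `K` has `O.valuation (δ • f / f) = 1` for every `f ≠ 0`;
* `isFixed_smul_div` : if `δ` normalises `Γ` and `f` is `Γ`-fixed then so is `δ • f / f`;
* `isKummerRep_balance` : if `δ • ξ = u • ξ` and `a (u - 1) ≡ 1 mod m` then `(δ • f / f) ^ a` is a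
  Kummer function of `ξ` for every Kummer function `f` of `ξ`.

Together: ONE element `δ` of the inertia group acting on the line of `ξ` through a character value
`u ≢ 1` turns a `G₁`-fixed Kummer function into a `G₁`-fixed Kummer function which is a unit at
both Gauss valuations.
-/

set_option autoImplicit false
set_option linter.unusedSectionVars false

noncomputable section

namespace Fermat.Agent.S40x.R2.AS.Balance

open AlgebraicCurve IsLocalRing
open Fermat.Agent.S19x.Geo.LatticeFixed (IsFixed IsFixedK smul_smul_semilinear)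
open Fermat.Agent.Gateway.Kummer

variable {K : Type*} [Field K] {A : ValuationSubring K} {F : Type*} [Field F] [Algebra K F]

/-! ### valuation one -/

section Val

variable {O : ValuationSubring F}

theorem valuation_eq_one_iff {f : F} (hf : f ≠ 0) : O.valuation f = 1 ↔ f ∈ O ∧ f⁻¹ ∈ O := by
  rw [← O.valuation_le_one_iff, ← O.valuation_le_one_iff, map_inv₀]
  have h0 : O.valuation f ≠ 0 := (map_ne_zero _).mpr hf
  constructor
  · intro h
    rw [h, inv_one]
    exact ⟨le_refl _, le_refl _⟩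
  · rintro ⟨h1, h2⟩
    refine le_antisymm h1 ?_
    rwa [inv_le_one₀ (zero_lt_iff.mpr h0)] at h2

theorem valuation_eq_one_of_mem {f : F} (hf : f ≠ 0) (h1 : f ∈ O) (h2 : f⁻¹ ∈ O) :
    O.valuation f = 1 :=
  (valuation_eq_one_iff hf).mpr ⟨h1, h2⟩

theorem ne_zero_of_valuation_eq_one {f : F} (h : O.valuation f = 1) : f ≠ 0 := by
  rintro rfl
  rw [map_zero] at h
  exact zero_ne_one h

/-- units of `A` have valuation one -/
theorem valuation_algebraMap_eq_one (hA : ∀ a : A, algebraMap K F a ∈ O) {c : K} (hc0 : c ≠ 0)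
    (hc : c ∈ A) (hci : c⁻¹ ∈ A) : O.valuation (algebraMap K F c) = 1 := by
  refine valuation_eq_one_of_mem ((map_ne_zero _).mpr hc0) (hA ⟨c, hc⟩) ?_
  rw [← map_inv₀]
  exact hA ⟨c⁻¹, hci⟩

/-- constants of valuation one are units of `A` -/
theorem unit_of_valuation_algebraMap_eq_one
    (hsm : ∀ a : A, a ∈ maximalIdeal A → O.valuation (algebraMap K F a) < 1) {c : K}
    (h : O.valuation (algebraMap K F c) = 1) : c ∈ A ∧ c⁻¹ ∈ A := by
  have key : ∀ d : K, O.valuation (algebraMap K F d) = 1 → d ∈ A := by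
    intro d hd
    by_contra hdA
    have hdi : d⁻¹ ∈ A := (A.mem_or_inv_mem d).resolve_left hdA
    have hnu : (⟨d⁻¹, hdi⟩ : A) ∈ maximalIdeal A := by
      rw [mem_maximalIdeal, mem_nonunits_iff]
      intro hu
      obtain ⟨e, he⟩ := hu.exists_right_inv
      have he' : d⁻¹ * (e : K) = 1 := congrArg Subtype.val he
      have hd0 : d ≠ 0 := by
        rintro rfl
        rw [inv_zero, zero_mul] at he'
        exact zero_ne_one he'
      have : (e : K) = d := by
        rw [← mul_one d, ← he', ← mul_assoc, mul_inv_cancel₀ hd0, one_mul]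
      exact hdA (this ▸ e.2)
    have h1 := hsm _ hnu
    have h2 : O.valuation (algebraMap K F d⁻¹) = 1 := by
      rw [map_inv₀, map_inv₀, hd, inv_one]
    exact absurd h2 (ne_of_lt h1)
  refine ⟨key c h, key c⁻¹ ?_⟩
  rw [map_inv₀, map_inv₀, h, inv_one]

theorem smul_eq_algebraMap_mul (c : K) (f : F) : c • f = algebraMap K F c * f :=
  Algebra.smul_def c f

end Val

/-! ### `hroot` -/

section Root

variable {O₁ O₂ : ValuationSubring F}

/-- in a valuation ring, an element with an `m`-th power a unit is a unit -/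
theorem unit_of_pow_unit {m : ℕ} (hm : 0 < m) {x : K} (h1 : x ^ m ∈ A) (h2 : (x ^ m)⁻¹ ∈ A) :
    x ∈ A ∧ x⁻¹ ∈ A := by
  have key : ∀ y : K, y ^ m ∈ A → (y ^ m)⁻¹ ∈ A → y ∈ A := by
    intro y hy1 hy2
    by_contra hyA
    have hyi : y⁻¹ ∈ A := (A.mem_or_inv_mem y).resolve_left hyA
    have hy0 : y ≠ 0 := by
      rintro rfl
      exact hyA A.zero_mem
    -- `y = y ^ m * (y⁻¹) ^ (m - 1)`
    have h3 : y = y ^ m * (y⁻¹) ^ (m - 1) := by
      obtain ⟨n, rfl⟩ : ∃ n, m = n + 1 := Nat.exists_eq_succ_of_ne_zero hm.ne'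
      rw [Nat.add_sub_cancel, pow_succ, inv_pow]
      field_simp
    exact hyA (h3 ▸ A.mul_mem _ _ hy1 (pow_mem hyi _))
  refine ⟨key x h1 h2, key x⁻¹ ?_ ?_⟩
  · rwa [inv_pow]
  · rwa [inv_pow, inv_inv]

/-- **`hroot`**: if `c • g ^ m` is a unit at both valuations, then a constant multiple of `g` is a
unit at both valuations. -/
theorem exists_const_smul_unit
    (hA₂ : ∀ a : A, algebraMap K F a ∈ O₂)
    (hsm₁ : ∀ a : A, a ∈ maximalIdeal A → O₁.valuation (algebraMap K F a) < 1)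
    (hsm₂ : ∀ a : A, a ∈ maximalIdeal A → O₂.valuation (algebraMap K F a) < 1)
    (hscal₁ : ∀ f : F, f ≠ 0 → ∃ c : K, c ≠ 0 ∧ O₁.valuation (c • f) = 1)
    (hscal₂ : ∀ f : F, f ≠ 0 → ∃ c : K, c ≠ 0 ∧ O₂.valuation (c • f) = 1)
    {m : ℕ} (hm : 0 < m) {c : K} {g : F} (hc : c ≠ 0) (hg : g ≠ 0)
    (h₁ : O₁.valuation (c • g ^ m) = 1) (h₂ : O₂.valuation (c • g ^ m) = 1) :
    ∃ c₁ : K, c₁ ≠ 0 ∧ O₁.valuation (c₁ • g) = 1 ∧ O₂.valuation (c₁ • g) = 1 := by
  obtain ⟨c₁, hc₁, hv₁⟩ := hscal₁ g hg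
  obtain ⟨c₂, hc₂, hv₂⟩ := hscal₂ g hg
  -- `c / cᵢ ^ m` has valuation one at `Oᵢ`
  have hval : ∀ (O : ValuationSubring F) (d : K), d ≠ 0 → O.valuation (d • g) = 1 →
      O.valuation (c • g ^ m) = 1 → O.valuation (algebraMap K F (c / d ^ m)) = 1 := by
    intro O d hd hdg hcg
    have h3 : algebraMap K F (c / d ^ m) = (c • g ^ m) / (d • g) ^ m := by
      rw [smul_eq_algebraMap_mul, smul_eq_algebraMap_mul, map_div₀, map_pow, mul_pow]
      have hd' : algebraMap K F d ≠ 0 := (map_ne_zero _).mpr hd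
      field_simp
    rw [h3, map_div₀, map_pow, hdg, hcg, one_pow, div_one]
  have hu₁ := unit_of_valuation_algebraMap_eq_one hsm₁ (hval O₁ c₁ hc₁ hv₁ h₁)
  have hu₂ := unit_of_valuation_algebraMap_eq_one hsm₂ (hval O₂ c₂ hc₂ hv₂ h₂)
  -- `(c₁ / c₂) ^ m` is a unit of `A`
  have hpow : (c₁ / c₂) ^ m = (c / c₁ ^ m)⁻¹ * (c / c₂ ^ m) := by
    rw [div_pow]
    field_simp
  have hu : c₁ / c₂ ∈ A ∧ (c₁ / c₂)⁻¹ ∈ A := by
    refine unit_of_pow_unit hm ?_ ?_
    · rw [hpow]
      exact A.mul_mem _ _ hu₁.2 hu₂.1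
    · rw [hpow, mul_inv, inv_inv]
      exact A.mul_mem _ _ hu₁.1 hu₂.2
  refine ⟨c₁, hc₁, hv₁, ?_⟩
  have h4 : c₁ • g = algebraMap K F (c₁ / c₂) * (c₂ • g) := by
    rw [smul_eq_algebraMap_mul, smul_eq_algebraMap_mul, ← mul_assoc, ← map_mul,
      div_mul_cancel₀ c₁ hc₂]
  rw [h4, map_mul, hv₂, mul_one]
  exact valuation_algebraMap_eq_one hA₂ (div_ne_zero hc₁ hc₂) hu.1 hu.2

end Root

/-! ### the quotient `δ • f / f` -/

section Quot

variable {O : ValuationSubring F}

/-- a semilinear automorphism preserving `O` and the valuation of `K` preserves the valuation of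
`F` up to units. -/
theorem valuation_smul_div_eq_one (δ : SemilinearAut K F) (hδO : ∀ f : F, f ∈ O → δ • f ∈ O)
    (hδA : ∀ c : K, c ≠ 0 →
      SemilinearAut.baseAut δ c / c ∈ A ∧ c / SemilinearAut.baseAut δ c ∈ A)
    (hA : ∀ a : A, algebraMap K F a ∈ O)
    (hscal : ∀ f : F, f ≠ 0 → ∃ c : K, c ≠ 0 ∧ O.valuation (c • f) = 1)
    {f : F} (hf : f ≠ 0) : O.valuation (δ • f / f) = 1 := by
  obtain ⟨c, hc, hv⟩ := hscal f hf
  have hcf0 : c • f ≠ 0 := ne_zero_of_valuation_eq_one hv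
  obtain ⟨h1, h2⟩ := (valuation_eq_one_iff hcf0).mp hv
  -- `δ • (c • f)` is a unit
  have h3 : O.valuation (δ • (c • f)) = 1 := by
    refine valuation_eq_one_of_mem ?_ (hδO _ h1) ?_
    · rwa [Ne, smul_eq_zero_iff_eq]
    · rw [← smul_inv'']
      exact hδO _ h2
  rw [smul_smul_semilinear] at h3
  set c' : K := SemilinearAut.baseAut δ c with hc'
  have hc'0 : c' ≠ 0 := (map_ne_zero _).mpr hc
  have hcf : algebraMap K F c ≠ 0 := (map_ne_zero _).mpr hc
  have hcf' : algebraMap K F c' ≠ 0 := (map_ne_zero _).mpr hc'0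
  have h4 : δ • f / f = (c' • (δ • f)) / (c • f) * algebraMap K F (c / c') := by
    rw [smul_eq_algebraMap_mul, smul_eq_algebraMap_mul, map_div₀]
    field_simp
  obtain ⟨h5, h6⟩ := hδA c hc
  have h7 : O.valuation (algebraMap K F (c / c')) = 1 := by
    refine valuation_algebraMap_eq_one hA (div_ne_zero hc hc'0) h6 ?_
    rwa [inv_div]
  rw [h4, map_mul, map_div₀, h3, hv, h7, div_one, mul_one]

variable {Γ : Set (SemilinearAut K F)}

theorem isFixed_mul {f g : F} (hf : IsFixed Γ f) (hg : IsFixed Γ g) : IsFixed Γ (f * g) :=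
  fun s hs => by rw [smul_mul', hf s hs, hg s hs]

theorem isFixed_inv {f : F} (hf : IsFixed Γ f) : IsFixed Γ f⁻¹ :=
  fun s hs => by rw [smul_inv'', hf s hs]

theorem isFixed_pow {f : F} (hf : IsFixed Γ f) (n : ℕ) : IsFixed Γ (f ^ n) :=
  fun s hs => by rw [smul_pow', hf s hs]

theorem isFixed_one : IsFixed Γ (1 : F) := fun s _ => smul_one s

/-- if `δ` normalises `Γ` then `δ • f / f` is `Γ`-fixed for `Γ`-fixed `f`. -/
theorem isFixed_smul_div (δ : SemilinearAut K F) (hnorm : ∀ s ∈ Γ, δ⁻¹ * s * δ ∈ Γ) {f : F}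
    (hf : IsFixed Γ f) : IsFixed Γ (δ • f / f) := by
  intro s hs
  have h1 : s • δ • f = δ • f := by
    have h2 : s * δ = δ * (δ⁻¹ * s * δ) := by group
    rw [← mul_smul, h2, mul_smul, hf _ (hnorm s hs)]
  rw [div_eq_mul_inv, smul_mul', smul_inv'', h1, hf s hs]

end Quot

/-! ### the Kummer class of `(δ • f / f) ^ a` -/

/-- if `δ • ξ = u • ξ` and `a (u - 1) ≡ 1 mod m`, then `(δ • f / f) ^ a` is a Kummer function of
`ξ` for every Kummer function `f` of `ξ`. -/
theorem isKummerRep_balance {m : ℕ} {ξ : Pic0 K F} {f : F} (hf : IsKummerRep m ξ f)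
    (δ : SemilinearAut K F) {u : ℤ} {a : ℕ} (hδξ : δ • ξ = u • ξ)
    (ha : ∃ t : ℤ, (a : ℤ) * (u - 1) = 1 + (m : ℤ) * t) :
    IsKummerRep m ξ ((δ • f / f) ^ a) := by
  have h1 : IsKummerRep m (a • (δ • ξ - ξ)) ((δ • f / f) ^ a) := ((hf.smul δ).div hf).pow a
  have h2 : a • (δ • ξ - ξ) = ξ := by
    obtain ⟨t, ht⟩ := ha
    have hm : (m : ℤ) • ξ = 0 := hf.zsmul_eq_zero
    have h3 : a • (u • ξ - ξ) = ((a : ℤ) * (u - 1)) • ξ := by
      rw [mul_zsmul, sub_zsmul, one_zsmul, natCast_zsmul, sub_eq_add_neg]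
    rw [hδξ, h3, ht, add_zsmul, one_zsmul, mul_comm, mul_zsmul, hm, zsmul_zero, add_zero]
  rwa [h2] at h1

end Fermat.Agent.S40x.R2.AS.Balance
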