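import Fermat.Agent.S40x.R2.AS.FixedDatum
import Fermat.Agent.S40x.R2.AS.Balance
import Fermat.Agent.S33x.Cech.ChangeDatum
import Fermat.Agent.S33x.Cech.CycKm

/-!
# P-S44/S40, block C3, leaf C3-AS-RAT, file 4 (helper33): the RATIONAL Kummer pair and Cech datum

General `RedSetup2` context (`κ` reduced), `Γ` a set of semilinear automorphisms with the
`W`-structure `FixData2 R Γ`, `F` spanned by its `Γ`-fixed elements.

* `inv_mem_of_isUnit_res` : an element of `S.O` with invertible reduction is a unit of `S.O`;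
* `exists_const_smul_unit` (**`hroot`**) : if `c • g ^ m` is a unit of `S.O` then a constant multiple
  of `g` is a unit of `S.O`;
* `exists_eq_const_smul_mul_pow` (**`hdiff`**) : two Kummer functions of one class differ by a
  constant and an `m`-th power;
* `exists_fixed_isData` : a class `ξ` with a NORMALISED Kummer function (`ξ ∈ K_m`) and with a
  `Γ`-FIXED Kummer function which is a unit of `S.O` has a `Γ`-fixed normalised Kummer pair
  `(w, D)` (`IsData R m ξ w D`, `w` fixed, `D` stable);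
* `exists_fixed_data` : moreover a Cech datum of `D` with four `Γ`-fixed trivialisations
  (input of `S40x/AS/CalcDatum.as_calc_datum`).
-/

set_option autoImplicit false
set_option linter.unusedSectionVars false
set_option linter.style.haveILetI false

noncomputable section

namespace Fermat.Agent.S40x.R2.AS.RatDatum

open AlgebraicCurve IsLocalRing Module
open Fermat.Agent.Gateway.C0 Fermat.Agent.S34x Fermat.Agent.S34x.C0two Fermat.Agent.S34x.Lattice2
open Fermat.Agent.Gateway.Kummer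
open Fermat.Agent.S19x.Geo.LatticeFixed
open Fermat.Agent.S33x.H1.LatticeFixed2
open Fermat.Agent.S33x.KummerPn
open Fermat.Agent.S33x.Cech Fermat.Agent.S33x.Cech.Datum Fermat.Agent.S33x.Cech.GalDatumCore
open Fermat.Agent.S33x.Cech.CycKm Fermat.Agent.S33x.Cech.ChangeDatum
open Fermat.Agent.S40x.R2.AS.FixedDatum Fermat.Agent.S40x.R2.AS.Balance

variable {K : Type*} [Field K] {A : ValuationSubring K} {F : Type*} [Field F] [Algebra K F]
  {S : SmallRing F} {k κ : Type*} [Field k] [CommRing κ] [Algebra k κ]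

section General

variable (R : RedSetup2 A S k κ)

/-- **`hinv`**: an element of `S.O` with invertible reduction is a unit of `S.O`. -/
theorem inv_mem_of_isUnit_res {x : F} (hx : x ∈ S.O) (hu : IsUnit (R.res ⟨x, hx⟩)) :
    x⁻¹ ∈ S.O := by
  haveI := nontrivial_res R
  have hx0 : x ≠ 0 := by
    rintro rfl
    have h0 : (⟨0, hx⟩ : S.O) = 0 := rfl
    rw [h0, map_zero] at hu
    exact not_isUnit_zero hu
  obtain ⟨mu, hmu, hyO, hyns⟩ := R.scal x⁻¹ (inv_ne_zero hx0)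
  have hxy : x * (mu • x⁻¹) = algebraMap K F mu := by
    rw [Algebra.smul_def, mul_comm, mul_assoc, inv_mul_cancel₀ hx0, mul_one]
  have hmuO : algebraMap K F mu ∈ S.O := hxy ▸ S.O.mul_mem hx hyO
  have hmuA : mu ∈ A := mem_of_algebraMap_mem R hmuO
  set a : A := ⟨mu, hmuA⟩ with ha
  have hπa : R.π a ≠ 0 := by
    intro h0
    apply hyns
    rw [R.small_iff hyO]
    have h1 : (⟨x, hx⟩ : S.O) * ⟨mu • x⁻¹, hyO⟩ = ⟨algebraMap K F a, R.algebraMap_mem a⟩ :=
      Subtype.ext hxy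
    have h2 := congrArg R.res h1
    rw [map_mul, R.res_algebraMap, h0, map_zero] at h2
    exact hu.mul_right_eq_zero.mp h2
  obtain ⟨b, -, hbK⟩ := inv_mem_of_π_ne_zero R hπa
  have h3 : x⁻¹ = b • (mu • x⁻¹) := by
    show x⁻¹ = (b : K) • (mu • x⁻¹)
    rw [hbK, smul_smul]
    show x⁻¹ = (mu⁻¹ * mu) • x⁻¹
    rw [inv_mul_cancel₀ hmu, one_smul]
  rw [h3]
  exact R.smul_mem_O b hyO

include R in
/-- **`hroot`**: if `c • g ^ m` is a unit of `S.O`, a constant multiple of `g` is a unit of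
`S.O`. -/
theorem exists_const_smul_unit [IsReduced κ] {m : ℕ} (hm : 0 < m) {c : K} {g : F} (hc : c ≠ 0)
    (hg : g ≠ 0) (h1 : c • g ^ m ∈ S.O) (h2 : (c • g ^ m)⁻¹ ∈ S.O) :
    ∃ c₁ : K, c₁ ≠ 0 ∧ c₁ • g ∈ S.O ∧ (c₁ • g)⁻¹ ∈ S.O := by
  haveI := nontrivial_res R
  set e : F := c • g ^ m with he
  have he0 : e ≠ 0 := by
    rw [he, Algebra.smul_def]
    exact mul_ne_zero ((map_ne_zero _).mpr hc) (pow_ne_zero _ hg)
  obtain ⟨mu0, hmu0, hGO, hGns⟩ := R.scal g hg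
  set G : F := mu0 • g with hG
  set α : K := mu0 ^ m / c with hα
  have hGpow : G ^ m = α • e := by
    rw [hG, he, hα, smul_pow, smul_smul, div_mul_cancel₀ _ hc]
  have hαO : algebraMap K F α ∈ S.O := by
    have h3 : algebraMap K F α = G ^ m * e⁻¹ := by
      rw [hGpow, Algebra.smul_def, mul_assoc, mul_inv_cancel₀ he0, mul_one]
    rw [h3]
    exact S.O.mul_mem (S.O.pow_mem hGO _) h2
  have hαA : α ∈ A := mem_of_algebraMap_mem R hαO
  set a : A := ⟨α, hαA⟩ with ha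
  have hresG : R.res ⟨G, hGO⟩ ^ m = R.π a • R.res ⟨e, h1⟩ := by
    rw [← map_pow, ← R.res_smul a h1]
    congr 1
    apply Subtype.ext
    rw [SubmonoidClass.coe_pow]
    exact hGpow
  have hπa : R.π a ≠ 0 := by
    intro h0
    rw [h0, zero_smul] at hresG
    have h3 : IsNilpotent (R.res ⟨G, hGO⟩) := ⟨m, hresG⟩
    exact hGns ((R.small_iff hGO).mpr h3.eq_zero)
  -- `res e` is a unit
  have hue : IsUnit (R.res ⟨e, h1⟩) := by
    have h3 : (⟨e, h1⟩ : S.O) * ⟨e⁻¹, h2⟩ = 1 := Subtype.ext (mul_inv_cancel₀ he0)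
    have h4 := congrArg R.res h3
    rw [map_mul, map_one] at h4
    exact IsUnit.of_mul_eq_one _ h4
  have huG : IsUnit (R.res ⟨G, hGO⟩) := by
    rw [← isUnit_pow_iff hm.ne', hresG, Algebra.smul_def]
    exact ((isUnit_iff_ne_zero.mpr hπa).map (algebraMap k κ)).mul hue
  exact ⟨mu0, hmu0, hGO, inv_mem_of_isUnit_res R hGO huG⟩

end General

/-- **`hdiff`**: two Kummer functions of one class differ by a constant and an `m`-th power. -/
theorem exists_eq_const_smul_mul_pow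
    (hconst : ∀ g : F, (∀ v : Place K F, v.ord g = 0) → ∃ c : K, g = algebraMap K F c)
    {m : ℕ} {ξ : Pic0 K F} {w w' : F} (hw : IsKummerRep m ξ w) (hw' : IsKummerRep m ξ w') :
    ∃ (c : K) (g : F), c ≠ 0 ∧ g ≠ 0 ∧ w' = c • (w * g ^ m) := by
  obtain ⟨hw0, D, hDξ, hD⟩ := hw
  obtain ⟨hw'0, D', hD'ξ, hD'⟩ := hw'
  obtain ⟨f0, hf0, hf0D⟩ := exists_ord_of_mk_eq (D := (D : Divisor K F)) (D' := (D' : Divisor K F))
    D.2 D'.2 (hDξ.trans hD'ξ.symm)
  set g : F := w' * (w * f0 ^ m)⁻¹ with hg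
  have hwf0 : w * f0 ^ m ≠ 0 := mul_ne_zero hw0 (pow_ne_zero _ hf0)
  have hgord : ∀ v : Place K F, v.ord g = 0 := by
    intro v
    rw [hg, v.ord_mul hw'0 (inv_ne_zero hwf0), v.ord_inv, v.ord_mul hw0 (pow_ne_zero _ hf0),
      ← zpow_natCast, v.ord_zpow, ← hD v, ← hD' v, hf0D v]
    ring
  obtain ⟨c, hc⟩ := hconst g hgord
  have hg0 : g ≠ 0 := mul_ne_zero hw'0 (inv_ne_zero hwf0)
  have hc0 : c ≠ 0 := by
    intro h0
    rw [h0, map_zero] at hc
    exact hg0 hc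
  refine ⟨c, f0, hc0, hf0, ?_⟩
  rw [Algebra.smul_def, ← hc, hg]
  field_simp

section Main

variable {R : RedSetup2 A S k κ} {Γ : Set (SemilinearAut K F)}

/-- a divisor `D` with `m D = div w`, `w` fixed, is stable. -/
theorem smul_divisor_eq_of_fixed {m : ℕ} (hm : 0 < m) {w : F} {D : Divisor K F}
    (hord : ∀ v : Place K F, (m : ℤ) * D v = v.ord w) (hwfix : IsFixed Γ w) :
    ∀ g ∈ Γ, g • D = D := by
  intro g hg
  apply Finsupp.ext
  intro v
  have hm' : (m : ℤ) ≠ 0 := by exact_mod_cast hm.ne'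
  apply mul_left_cancel₀ hm'
  rw [SemilinearAut.divisor_smul_apply, hord, hord]
  have h := SemilinearAut.ord_smul g (g⁻¹ • v) w
  rw [smul_inv_smul, hwfix g hg] at h
  exact h.symm

/-- **The rational normalised Kummer pair.** -/
theorem exists_fixed_isData [HasPrincipalDivisors K F] [IsReduced κ] (hD : FixData2 R Γ)
    (hF : Submodule.span K {f : F | IsFixed Γ f} = ⊤)
    (hcart : ∀ V : Submodule K F, FiniteDimensional K V → (R.lat V).FG)
    (hconst : ∀ g : F, (∀ v : Place K F, v.ord g = 0) → ∃ c : K, g = algebraMap K F c)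
    {m : ℕ} (hm : 0 < m) (hkroot : ∀ y : k, ∃ z : k, z ^ m = y)
    {ξ : Pic0 K F} {w0 : F} (hw0 : IsKummerRep m ξ w0) (hw0fix : IsFixed Γ w0)
    (hw0O : w0 ∈ S.O) (hw0i : w0⁻¹ ∈ S.O)
    (hKm : ∃ w1 : F, IsKummerRep m ξ w1 ∧ UnitOne R w1) :
    ∃ (w : F) (D : Divisor K F), IsData R m ξ w D ∧ IsFixed Γ w ∧ ∀ g ∈ Γ, g • D = D := by
  haveI := nontrivial_res R
  obtain ⟨w1, hw1, hw1O, hw1i, hw1r⟩ := hKm
  have hw00 : w0 ≠ 0 := hw0.ne_zero
  have hw10 : w1 ≠ 0 := hw1.ne_zero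
  obtain ⟨c, g, hc, hg, hww⟩ := exists_eq_const_smul_mul_pow hconst hw0 hw1
  -- `e = c • g ^ m = w1 / w0` is a unit of `S.O`
  have he : c • g ^ m = w1 * w0⁻¹ := by
    rw [hww, Algebra.smul_def, Algebra.smul_def]
    field_simp
  have heO : c • g ^ m ∈ S.O := he ▸ S.O.mul_mem hw1O hw0i
  have heiO : (c • g ^ m)⁻¹ ∈ S.O := by
    rw [he, mul_inv, inv_inv]
    exact S.O.mul_mem hw1i hw0O
  obtain ⟨c₁, hc₁, hGO, hGiO⟩ := exists_const_smul_unit R hm hc hg heO heiO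
  set G : F := c₁ • g with hG
  have hG0 : G ≠ 0 := by
    rw [hG, Algebra.smul_def]
    exact mul_ne_zero ((map_ne_zero _).mpr hc₁) hg
  -- the constant `c' = c / c₁ ^ m` is a unit of `A`
  set c' : K := c / c₁ ^ m with hc'
  have hc'0 : c' ≠ 0 := div_ne_zero hc (pow_ne_zero _ hc₁)
  have hc₁F : algebraMap K F c₁ ≠ 0 := (map_ne_zero _).mpr hc₁
  have hcG : c • g ^ m = algebraMap K F c' * G ^ m := by
    rw [hG, hc', Algebra.smul_def, Algebra.smul_def, mul_pow, map_div₀, map_pow]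
    field_simp
  have hc'iO : algebraMap K F c'⁻¹ ∈ S.O := by
    have h3 : algebraMap K F c'⁻¹ = (c • g ^ m)⁻¹ * G ^ m := by
      rw [hcG, map_inv₀, mul_inv]
      have : algebraMap K F c' ≠ 0 := (map_ne_zero _).mpr hc'0
      field_simp
    rw [h3]
    exact S.O.mul_mem heiO (S.O.pow_mem hGO m)
  have hc'iA : c'⁻¹ ∈ A := mem_of_algebraMap_mem R hc'iO
  have hc'O : algebraMap K F c' ∈ S.O := by
    have h3 : algebraMap K F c' = (c • g ^ m) * (G⁻¹) ^ m := by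
      rw [hcG, inv_pow, mul_assoc, mul_inv_cancel₀ (pow_ne_zero _ hG0), mul_one]
    rw [h3]
    exact S.O.mul_mem heO (S.O.pow_mem hGiO m)
  have hc'A : c' ∈ A := mem_of_algebraMap_mem R hc'O
  set a' : A := ⟨c'⁻¹, hc'iA⟩ with ha'
  have hπa' : R.π a' ≠ 0 := by
    intro h0
    have h3 : a' * ⟨c', hc'A⟩ = 1 := Subtype.ext (inv_mul_cancel₀ hc'0)
    have h4 := congrArg R.π h3
    rw [map_mul, h0, zero_mul, map_one] at h4
    exact zero_ne_one h4
  obtain ⟨zbar, hz⟩ := hkroot (R.π a')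
  obtain ⟨β, hβ⟩ := R.π_surj zbar
  have hπβ : R.π β ≠ 0 := by
    intro h0
    rw [hβ] at h0
    rw [h0, zero_pow hm.ne'] at hz
    exact hπa' hz.symm
  obtain ⟨βi, hβi, hβiK⟩ := inv_mem_of_π_ne_zero R hπβ
  have hβ0 : (β : K) ≠ 0 := by
    intro h0
    apply hπβ
    have : β = 0 := Subtype.ext h0
    rw [this, map_zero]
  -- the unit `G' = β • G⁻¹`
  have hG'O : β • G⁻¹ ∈ S.O := R.smul_mem_O β hGiO
  have hG'0 : β • G⁻¹ ≠ 0 := by
    rw [R.smul_eq]
    exact mul_ne_zero ((map_ne_zero _).mpr hβ0) (inv_ne_zero hG0)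
  have hG'iO : (β • G⁻¹)⁻¹ ∈ S.O := by
    have h3 : (β • G⁻¹)⁻¹ = βi • G := by
      rw [R.smul_eq, R.smul_eq, hβiK, mul_inv, inv_inv, map_inv₀]
    rw [h3]
    exact R.smul_mem_O βi hGO
  -- `res w0 = res G' ^ m`
  have hw0e : w0 = w1 * (a' • (G⁻¹) ^ m) := by
    rw [R.smul_eq]
    show w0 = w1 * (algebraMap K F c'⁻¹ * (G⁻¹) ^ m)
    have h3 : w1 = (algebraMap K F c' * G ^ m) * w0 := by
      rw [← hcG, he, mul_assoc, inv_mul_cancel₀ hw00, mul_one]
    rw [h3, map_inv₀, inv_pow]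
    have : algebraMap K F c' ≠ 0 := (map_ne_zero _).mpr hc'0
    field_simp
  have hGimO : (G⁻¹) ^ m ∈ S.O := S.O.pow_mem hGiO m
  have hres : R.res ⟨w0, hw0O⟩ = R.res ⟨β • G⁻¹, hG'O⟩ ^ m := by
    have h3 : (⟨w0, hw0O⟩ : S.O) = ⟨w1, hw1O⟩ * ⟨a' • (G⁻¹) ^ m, R.smul_mem_O a' hGimO⟩ :=
      Subtype.ext hw0e
    rw [h3, map_mul, hw1r, one_mul, R.res_smul a' hGimO, R.res_smul β hGiO, smul_pow, hβ, hz]
    congr 1
    rw [← map_pow]
    rfl
  obtain ⟨gg, hggO, hgg0, hggi, hggfix, -, hwO, hwres⟩ :=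
    exists_fixed_normalise hD hF hcart (fun x hx hu => inv_mem_of_isUnit_res R hx hu) m
      hw0O hG'O hG'iO hG'0 hres
  -- the new Kummer function
  have hkum : IsKummerRep m ξ (w0 * (gg⁻¹) ^ m) := by
    have h3 := hw0.mul (isKummerRep_zero_pow (K := K) m (inv_ne_zero hgg0))
    rwa [add_zero] at h3
  obtain ⟨hwne, D, hDξ, hDord⟩ := hkum
  have hwfix : IsFixed Γ (w0 * (gg⁻¹) ^ m) :=
    Balance.isFixed_mul hw0fix (Balance.isFixed_pow (Balance.isFixed_inv hggfix) m)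
  have hwiO : (w0 * (gg⁻¹) ^ m)⁻¹ ∈ S.O := by
    rw [mul_inv, inv_pow, inv_inv]
    exact S.O.mul_mem hw0i (S.O.pow_mem hggO m)
  refine ⟨w0 * (gg⁻¹) ^ m, (D : Divisor K F), ⟨hwne, ⟨hwO, hwiO, hwres⟩, hDord, D.2, hDξ⟩, hwfix,
    smul_divisor_eq_of_fixed hm hDord hwfix⟩

/-- **The rational Kummer pair with a rational Cech datum** (input of
`S40x/AS/CalcDatum.as_calc_datum`). -/
theorem exists_fixed_data [HasPrincipalDivisors K F] [IsReduced κ] (hD : FixData2 R Γ)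
    (hF : Submodule.span K {f : F | IsFixed Γ f} = ⊤)
    (hcart : ∀ V : Submodule K F, FiniteDimensional K V → (R.lat V).FG)
    (hconst : ∀ g : F, (∀ v : Place K F, v.ord g = 0) → ∃ c : K, g = algebraMap K F c)
    {t : F} {Dt : Divisor K F}
    (hgood : ∀ g ∈ Γ, IsGood R t g) (hDt : ∀ v : Place K F, Dt v = v.ord t)
    (hfin : ∀ (E : Divisor K F) (a b : ℕ),
      FiniteDimensional K ((TwoCharts.ofDivisor Dt).LM E a b))
    {m : ℕ} (hm : 0 < m) (hkroot : ∀ y : k, ∃ z : k, z ^ m = y)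
    {ξ : Pic0 K F}
    (hL1 : ∀ (w : F) (D : Divisor K F), IsData R m ξ w D → Nonempty (CechDatum R Dt D))
    {w0 : F} (hw0 : IsKummerRep m ξ w0) (hw0fix : IsFixed Γ w0)
    (hw0O : w0 ∈ S.O) (hw0i : w0⁻¹ ∈ S.O)
    (hKm : ∃ w1 : F, IsKummerRep m ξ w1 ∧ UnitOne R w1) :
    ∃ (w : F) (D : Divisor K F), IsData R m ξ w D ∧ IsFixed Γ w ∧ (∀ g ∈ Γ, g • D = D) ∧
      ∃ d : CechDatum R Dt D, IsFixed Γ d.hoo ∧ IsFixed Γ d.h0 ∧ IsFixed Γ d.hoo' ∧
        IsFixed Γ d.h0' := by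
  obtain ⟨w, D, hdata, hwfix, hDfix⟩ :=
    exists_fixed_isData hD hF hcart hconst hm hkroot hw0 hw0fix hw0O hw0i hKm
  obtain ⟨d⟩ := hL1 w D hdata
  obtain ⟨d', h1, h2, h3, h4⟩ := exists_fixed_cechDatum hD hF hcart hgood hDt hfin hDfix d
  exact ⟨w, D, hdata, hwfix, hDfix, d', h1, h2, h3, h4⟩

end Main

end Fermat.Agent.S40x.R2.AS.RatDatum
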