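import Fermat.Agent.S40x.W.G1Ctx
import Fermat.Agent.S40x.R2.AS.RatDatum
import Fermat.Agent.S40x.R2.AS.FixedKummerMq
import Fermat.Agent.S33x.Cech.CtxMq
import Fermat.Agent.S33x.Cech.CycKm
import Fermat.Agent.S34x.Inst.GaloisInst

/-!
# P-S44/S40, block C3, leaf C3-AS-RAT, file 6 (helper33): the `K₁`-rational Kummer pair and Cech
datum at the concrete level `M q`

`P | q` a valuation subring of `ℚ̄`, `I` its inertia group, `ζ` a primitive `q`-th root of unity,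
`G₁ = {τ ∈ I : τ ζ = ζ}` (`S40x/W/G1`), `Γ₁ = G1Act P ζ (M q)`.

* `exists_inertia_ne` : for `q ≥ 3` some `δ ∈ I` moves `ζ`;
* `exists_fixed_data_Mq` : a class `ξ ∈ K_q` (`Km H hA q`) on which `I` acts through the mod `q`
  cyclotomic character (`σ ξ = a ξ`, `σ ζ = ζ ^ a`) has a `Γ₁`-FIXED normalised Kummer pair `(w, D)`
  (`CycKm.IsData (redSetup2 H hA) q ξ w D`) and a Cech datum `d : CechDatum _ Dt D` with four
  `Γ₁`-fixed trivialisations: exactly the input of `S40x/AS/CalcDatum.as_calc_datum` /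
  `exists_kummer_function`.
-/

set_option autoImplicit false
set_option linter.unusedSectionVars false
set_option linter.unusedVariables false
set_option linter.style.haveILetI false

noncomputable section

namespace Fermat.Agent.S40x.R2.AS.RatDatumMq

open ModularCurve AlgebraicCurve Module IntermediateField IsLocalRing
open Fermat.Agent.Gateway.C0 Fermat.Agent.S34x.C0two Fermat.Agent.S34x.Lattice2
open Fermat.Agent.Gateway.Kummer
open Fermat.Agent.Gateway.Hecke Fermat.Agent.Gateway.ESC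
open Fermat.Agent.Gateway.Red Fermat.Agent.Gateway.GoodRed
open Fermat.Agent.Gateway.GoodRed.ConjFamily
open Fermat.Agent.S34x.TwoVal
open Fermat.Agent.S34x.Inst.L2 Fermat.Agent.S34x.Inst.IsL2Inst
open Fermat.Agent.S34x.Inst.RedSetupInst Fermat.Agent.S34x.Inst.ElementYRed
open Fermat.Agent.S34x.Inst.ElementYInt Fermat.Agent.S34x.Inst.Charts
open Fermat.Agent.S34x.Inst Fermat.Agent.S34x.Inst.TheoremBMq
open Fermat.Agent.S56x.Flat.InertiaField
open Fermat.Agent.S19x.Geo.LatticeFixed (IsFixed IsFixedK)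
open Fermat.Agent.S19x.Hens Fermat.Agent.S19x.Hens.InertiaResidue
open Fermat.Agent.S33x.KummerPn
open Fermat.Agent.S33x.Cech Fermat.Agent.S33x.Cech.Datum Fermat.Agent.S33x.Cech.GalDatumCore
open Fermat.Agent.S33x.Cech.CycKm Fermat.Agent.S33x.Cech.CtxMq
open Fermat.Agent.S33x.W.ScalFixedTwo
open Fermat.Agent.S40x.W.G1 Fermat.Agent.S40x.W.G1Ctx
open Fermat.Agent.S40x.R2.AS.Balance Fermat.Agent.S40x.R2.AS.RatDatum
open Fermat.Agent.S40x.R2.AS.FixedKummerMq

attribute [-instance] IsScalarTower.of_algHom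

local notation "Qbar" => AlgebraicClosure ℚ
local notation "Γℚ" => (AlgebraicClosure ℚ ≃ₐ[ℚ] AlgebraicClosure ℚ)

/-! ### some inertia element moves `ζ` -/

section Move

variable {P : ValuationSubring Qbar} {q : ℕ}

/-- for `q ≥ 3`, the inertia group of `P | q` does not fix a primitive `q`-th root of unity. -/
theorem exists_inertia_ne (hq : q.Prime) (hq3 : 3 ≤ q) (hP : P.LiesOverPrime q) {ζ : Qbar}
    (hζ : IsPrimitiveRoot ζ q) : ∃ δ ∈ P.inertiaSubgroupIn ℚ, δ ζ ≠ ζ := by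
  by_contra hcon
  push Not at hcon
  have hfix : ∀ t ∈ P.inertiaSubgroupIn ℚ, t (ζ - 1) = ζ - 1 := fun t ht => by
    rw [map_sub, map_one, hcon t ht]
  obtain ⟨d, hd, hde⟩ := exists_eq_natCast_mul_of_fixed P hq hP
    (sub_one_mem_nonunits hq hP hζ) hfix
  obtain ⟨z, hz, hqz⟩ := exists_natCast_eq_mul_sub_one_pow hq hζ (P := P)
  have hq0 : (q : Qbar) ≠ 0 := by
    intro h0
    have h1 : ζ - 1 = 0 := by rw [hde, h0, zero_mul]
    exact sub_one_ne_zero hq hζ h1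
  -- `1 = z q^(q-2) d^(q-1)`
  have h1 : (1 : Qbar) = (q : Qbar) * (z * (q : Qbar) ^ (q - 3) * d ^ (q - 1)) := by
    have h2 : (q : Qbar) * 1 = (q : Qbar) * ((q : Qbar) * (z * (q : Qbar) ^ (q - 3) * d ^ (q - 1))) := by
      rw [mul_one]
      conv_lhs => rw [hqz, hde, mul_pow]
      have h3 : (q : Qbar) ^ (q - 1) = (q : Qbar) * (q : Qbar) * (q : Qbar) ^ (q - 3) := by
        rw [← pow_two, ← pow_add]
        congr 1
        omega
      rw [h3]
      ring
    exact mul_left_cancel₀ hq0 h2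
  have h4 : (1 : Qbar) ∈ P.nonunits := by
    rw [h1]
    refine mul_mem_nonunits_right P hP (P.mul_mem _ _ (P.mul_mem _ _ hz (pow_mem ?_ _))
      (pow_mem hd.1 _))
    exact P.nonunits_subset hP
  exact one_notMem_nonunits P h4

end Move

/-! ### torsion bookkeeping -/

section Tors

variable {G : Type*} [AddCommGroup G]

theorem nsmul_eq_nsmul_of_modEq {q a b : ℕ} {ξ : G} (hq : (q : ℤ) • ξ = 0)
    (h : a ≡ b [MOD q]) : a • ξ = b • ξ := by
  have h1 : (a : ℤ) ≡ b [ZMOD q] := Int.natCast_modEq_iff.mpr h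
  obtain ⟨t, ht⟩ := h1.symm.dvd
  have h2 : (a : ℤ) = b + q * t := by linarith
  rw [← natCast_zsmul, ← natCast_zsmul, h2, add_zsmul, mul_comm, mul_zsmul, hq, zsmul_zero,
    add_zero]

theorem modEq_one_of_pow_eq {q a : ℕ} (hq : 1 < q) {ζ : Qbar} (hζ : IsPrimitiveRoot ζ q)
    (h : ζ ^ a = ζ) : a ≡ 1 [MOD q] := by
  have hζ0 : ζ ≠ 0 := hζ.ne_zero (by omega)
  rcases a with _ | n
  · rw [pow_zero] at h
    exact absurd h.symm (hζ.ne_one hq)
  · have h1 : ζ ^ n = 1 := by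
      rw [pow_succ] at h
      exact mul_right_cancel₀ hζ0 (by rw [h, one_mul])
    have h2 : q ∣ n := (hζ.pow_eq_one_iff_dvd n).mp h1
    have h3 : n ≡ 0 [MOD q] := (Nat.modEq_zero_iff_dvd).mpr h2
    exact h3.add_right 1

theorem pow_eq_of_modEq_one {q a : ℕ} {ζ : Qbar} (hζ : IsPrimitiveRoot ζ q)
    (h : a ≡ 1 [MOD q]) : ζ ^ a = ζ := by
  have h1 : ζ ^ a = ζ ^ (a % q) := by
    conv_lhs => rw [← Nat.div_add_mod a q, pow_add, pow_mul, hζ.pow_eq_one, one_pow, one_mul]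
  have h2 : ζ ^ 1 = ζ ^ (1 % q) := by
    conv_lhs => rw [← Nat.div_add_mod 1 q, pow_add, pow_mul, hζ.pow_eq_one, one_pow, one_mul]
  rw [h1, h, ← h2, pow_one]

theorem exists_inv_mod {q : ℕ} (hq : q.Prime) {a : ℕ} (ha : ¬ a ≡ 1 [MOD q]) :
    ∃ b : ℕ, ∃ t : ℤ, (b : ℤ) * ((a : ℤ) - 1) = 1 + (q : ℤ) * t := by
  haveI : Fact q.Prime := ⟨hq⟩
  have ha1 : ((a : ZMod q) - 1) ≠ 0 := by
    intro h0
    apply ha
    have h1 : (a : ZMod q) = ((1 : ℕ) : ZMod q) := by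
      rw [Nat.cast_one]
      exact sub_eq_zero.mp h0
    exact (ZMod.natCast_eq_natCast_iff a 1 q).mp h1
  refine ⟨(((a : ZMod q) - 1)⁻¹).val, ?_⟩
  have h1 : ((((((a : ZMod q) - 1)⁻¹).val : ℤ) * ((a : ℤ) - 1) - 1 : ℤ) : ZMod q) = 0 := by
    push_cast
    rw [ZMod.natCast_val, ZMod.cast_id', id, inv_mul_cancel₀ ha1, sub_self]
  obtain ⟨t, ht⟩ := (ZMod.intCast_zmod_eq_zero_iff_dvd _ q).mp h1
  exact ⟨t, by linarith⟩

end Tors

/-! ### `I` normalises `G₁` -/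

section Norm

variable {P : ValuationSubring Qbar}

theorem conj_mem_G1Act {ζ : Qbar} {δ : Γℚ} (hδ : δ ∈ P.inertiaSubgroupIn ℚ) {a : ℕ}
    (hζa : δ ζ = ζ ^ a) (N : ℕ) :
    ∀ s ∈ G1Act P ζ N,
      (arithmeticGalois (modularFunctionFieldFull N) δ)⁻¹ * s *
        arithmeticGalois (modularFunctionFieldFull N) δ ∈ G1Act P ζ N := by
  rintro _ ⟨σ, hσ, rfl⟩
  refine ⟨δ⁻¹ * σ * δ, ⟨?_, ?_⟩, ?_⟩
  · exact mul_mem (mul_mem (inv_mem hδ) hσ.1) hδ
  · show δ⁻¹ (σ (δ ζ)) = ζ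
    rw [hζa, map_pow, hσ.2, ← hζa]
    show (δ⁻¹ * δ) ζ = ζ
    rw [inv_mul_cancel]
    rfl
  · rw [map_mul, map_mul, map_inv]

end Norm

/-! ### the concrete level -/

section Concrete

variable {P : ValuationSubring Qbar} {k : Type} [Field k] {π : P →+* k} [IsAlgClosed k]
variable {M q : ℕ} [NeZero M] [NeZero q] [Fact q.Prime] [CharP k q]
variable {hdeg : finrankAlong Qbar (heckeAlphaBar Qbar M q) = q + 1} {hq : q.Prime}
  {hqM : ¬ q ∣ M}
variable {hrk : ∀ x ∈ maximalIdeal P, ∀ c : P, c ≠ 0 → ∃ j : ℕ, c ∣ x ^ j}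
  {hπ : Function.Surjective π}
variable (H : ResidueFacts P π M q hdeg hq hqM hrk hπ) (hA : P.LiesOverPrime q)
  (x : LaurentSeries ℤ) (hx : coeffMap (Int.castRingHom Qbar) x ∈ FBar Qbar M)
  (Hx : GoodLevelFactsT P π M q hπ hqM (tInt M x hx))

/-- an inertia element preserves both Gauss valuations up to units. -/
theorem valuation_inertia_smul_div {δ : Γℚ} (hδ : δ ∈ P.inertiaSubgroupIn ℚ)
    {f : FL Qbar (M * q)} (hf : f ≠ 0) :
    (valInfty P π M q hrk hπ hqM).valuation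
        (arithmeticGalois (modularFunctionFieldFull (M * q)) δ • f / f) = 1 ∧
      (valZero P π M q hdeg hq hqM hrk hπ).valuation
        (arithmeticGalois (modularFunctionFieldFull (M * q)) δ • f / f) = 1 := by
  haveI : Algebra.IsAlgebraic ℚ Qbar := AlgebraicClosure.isAlgebraic ℚ
  have hδD : δ ∈ P.decompositionSubgroup ℚ := GaloisInst.mem_decomposition_of_mem_inertia P hδ
  have hδA : ∀ c : Qbar, c ≠ 0 →
      SemilinearAut.baseAut (arithmeticGalois (modularFunctionFieldFull (M * q)) δ) c / c ∈ P ∧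
        c / SemilinearAut.baseAut (arithmeticGalois (modularFunctionFieldFull (M * q)) δ) c ∈ P := by
    intro c hc
    obtain ⟨u, hu⟩ := UnitQuot.exists_unit_eq_apply_div P hδD hc
    have h1 : SemilinearAut.baseAut (arithmeticGalois (modularFunctionFieldFull (M * q)) δ) c
        = δ c := rfl
    rw [h1]
    refine ⟨hu ▸ (u : P).2, ?_⟩
    have h2 : c / δ c = (((u⁻¹ : Pˣ) : P) : Qbar) := by
      have h3 : ((u : P) : Qbar) * (((u⁻¹ : Pˣ) : P) : Qbar) = 1 :=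
        congrArg Subtype.val (Units.mul_inv u)
      rw [← inv_div, ← hu]
      exact (eq_inv_of_mul_eq_one_right h3).symm
    rw [h2]
    exact ((u⁻¹ : Pˣ) : P).2
  constructor
  · refine valuation_smul_div_eq_one (A := P) _ (fun g hg => ?_) hδA
      (fun a => algebraMap_mem_valInfty a) (fun g hg => ?_) hf
    · exact (smul_mem_Ov_iff P π (M * q) hπ hδD g).mpr hg
    · obtain ⟨c, hc, -, hv⟩ := scal_fixed_infty_semilinear P π M q hdeg hq hqM hrk hπ
        (∅ : Set Γℚ) g hg (by simp)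
      exact ⟨c, hc, hv⟩
  · refine valuation_smul_div_eq_one (A := P) _ (fun g hg => ?_) hδA
      (fun a => algebraMap_mem_valZero a) (fun g hg => ?_) hf
    · exact (smul_mem_Ov0_iff P π M q hdeg hq hqM hπ hδD g).mpr hg
    · obtain ⟨c, hc, -, hv⟩ := scal_fixed_zero_semilinear P π M q hdeg hq hqM hrk hπ
        (∅ : Set Γℚ) g hg (by simp)
      exact ⟨c, hc, hv⟩

set_option maxHeartbeats 400000 in
include Hx in
/-- **The `K₁`-rational Kummer pair and Cech datum at level `M q`.** -/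
theorem exists_fixed_data_Mq [PerfectRing k q] (C : ChartCoord (redSetup2 H hA))
    (hCt : C.t = tA M q x hx) (hxk : tbar k x ≠ 0) (hY : YFacts M q x hx)
    {Dt : Divisor Qbar (FL Qbar (M * q))}
    (hDt : ∀ v : Place Qbar (FL Qbar (M * q)), Dt v = v.ord C.t)
    {ζ : Qbar} (hζ : IsPrimitiveRoot ζ q) (hq3 : 3 ≤ q)
    {ξ : Pic0 Qbar (FL Qbar (M * q))} (hξ : ξ ∈ Km H hA q)
    (hchar : ∀ σ ∈ P.inertiaSubgroupIn ℚ, ∃ a : ℕ, σ • ξ = a • ξ ∧ σ ζ = ζ ^ a) :
    ∃ (w : FL Qbar (M * q)) (D : Divisor Qbar (FL Qbar (M * q))),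
      IsData (redSetup2 H hA) q ξ w D ∧ IsFixed (G1Act P ζ (M * q)) w ∧
      (∀ g ∈ G1Act P ζ (M * q), g • D = D) ∧
      ∃ d : CechDatum (redSetup2 H hA) Dt D, IsFixed (G1Act P ζ (M * q)) d.hoo ∧
        IsFixed (G1Act P ζ (M * q)) d.h0 ∧ IsFixed (G1Act P ζ (M * q)) d.hoo' ∧
        IsFixed (G1Act P ζ (M * q)) d.h0' := by
  haveI : Algebra.IsAlgebraic ℚ Qbar := AlgebraicClosure.isAlgebraic ℚ
  haveI : CharZero Qbar := algebraRat.charZero Qbar
  have hqP : q.Prime := Fact.out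
  obtain ⟨w1, hw1, hu1⟩ := hξ
  have hqξ : (q : ℤ) • ξ = 0 := hw1.zsmul_eq_zero
  have hq1 : 1 < q := hqP.one_lt
  -- `G₁` fixes the class
  have hξG1 : ∀ σ ∈ G1 P ζ, σ • ξ = ξ := by
    intro σ hσ
    obtain ⟨a, ha, hζa⟩ := hchar σ hσ.1
    rw [hσ.2] at hζa
    have h1 : a ≡ 1 [MOD q] := modEq_one_of_pow_eq hq1 hζ hζa.symm
    rw [ha, nsmul_eq_nsmul_of_modEq hqξ h1, one_smul]
  -- a `G₁`-fixed Kummer function
  obtain ⟨f0, hf0, hf0fix'⟩ := exists_fixed_kummer (N := M * q) (G1 P ζ) hqP hζ hξG1 hw1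
  have hf0fix : IsFixed (G1Act P ζ (M * q)) f0 := by
    rintro _ ⟨σ, hσ, rfl⟩
    exact hf0fix' σ hσ
  -- the balancing element
  obtain ⟨δ, hδ, hδζ⟩ := exists_inertia_ne hqP hq3 hA hζ
  obtain ⟨a, ha, hζa⟩ := hchar δ hδ
  have hδξ : arithmeticGalois (modularFunctionFieldFull (M * q)) δ • ξ = (a : ℤ) • ξ := by
    rw [natCast_zsmul, ← ha]
    rfl
  have ha1 : ¬ a ≡ 1 [MOD q] := fun h => hδζ (by rw [hζa]; exact pow_eq_of_modEq_one hζ h)
  obtain ⟨b, hbt⟩ := exists_inv_mod hqP ha1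
  have hw0k : IsKummerRep q ξ
      ((arithmeticGalois (modularFunctionFieldFull (M * q)) δ • f0 / f0) ^ b) :=
    isKummerRep_balance hf0 _ hδξ hbt
  have hw0fix : IsFixed (G1Act P ζ (M * q))
      ((arithmeticGalois (modularFunctionFieldFull (M * q)) δ • f0 / f0) ^ b) :=
    Balance.isFixed_pow (isFixed_smul_div _ (conj_mem_G1Act hδ hζa (M * q)) hf0fix) b
  -- `w0` is a unit of `S.O`
  obtain ⟨hv1, hv2⟩ := valuation_inertia_smul_div (π := π) (hdeg := hdeg) (hq := hq) (hqM := hqM)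
    (hrk := hrk) (hπ := hπ) hδ hf0.ne_zero
  have hw00 := hw0k.ne_zero
  have hw0v1 : (valInfty P π M q hrk hπ hqM).valuation
      ((arithmeticGalois (modularFunctionFieldFull (M * q)) δ • f0 / f0) ^ b) = 1 := by
    rw [map_pow, hv1, one_pow]
  have hw0v2 : (valZero P π M q hdeg hq hqM hrk hπ).valuation
      ((arithmeticGalois (modularFunctionFieldFull (M * q)) δ • f0 / f0) ^ b) = 1 := by
    rw [map_pow, hv2, one_pow]
  obtain ⟨h11, h12⟩ := (valuation_eq_one_iff hw00).mp hw0v1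
  obtain ⟨h21, h22⟩ := (valuation_eq_one_iff hw00).mp hw0v2
  -- the context
  have ht : Transcendental Qbar C.t := by
    rw [hCt]
    exact Charts.transcendental_tα Qbar M q Hx.trans
  haveI hfin : FiniteDimensional Qbar⟮C.t⟯ (FL Qbar (M * q)) := by
    rw [hCt]
    exact finiteDimensional_tA x hx Hx
  have hctx := ctx_of_chart H hA x hx Hx C hCt hxk hY hDt
  haveI := hctx.isSeparable_t
  have hgal := ctxGal_G1 H hA x hx Hx ζ C hCt
  have hDt' : ∀ v : Place Qbar (FL Qbar (M * q)), Dt v = v.ord (tA M q x hx) := by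
    intro v
    rw [hDt v, hCt]
  refine exists_fixed_data (fixData2_G1 H hA hζ) (span_fixed_G1Act P ζ (M * q)) hctx.hcart
    (Fermat.Agent.S40x.R2.KF.hconst_bar (M * q)) (t := C.t)
    (fun g hg => ⟨hgal.smul_t g hg, hgal.smul_mem g hg, hgal.res_smul g hg⟩) hDt
    (fun E a b => (TwoCharts.ofDivisor Dt).LM_finite ht E a b) hqP.pos
    (fun y => IsAlgClosed.exists_pow_nat_eq y hqP.pos) (fun w D hd => ?_) hw0k hw0fix
    ⟨h11, h21⟩ ⟨h12, h22⟩ ⟨w1, hw1, hu1⟩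
  have hd' : IsData (redSetup2 H hA) (q ^ 1) ξ w D := by rwa [pow_one]
  exact nonempty_cechDatum H hA x hx Hx hxk hY hDt' hd'

end Concrete

end Fermat.Agent.S40x.R2.AS.RatDatumMq
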