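import Fermat.Agent.S33x.H1.LatticeFixed2
import Fermat.Agent.S33x.Cech.GalDatumCore

/-!
# P-S44/S40, block C3, leaf C3-AS-RAT, abstract part (helper33): RATIONAL Cech data

General `RedSetup2` context, `Γ : Set (SemilinearAut K F)` a set of GOOD semilinear automorphisms
(`GalDatumCore.IsGood`: fix the chart coordinate `t`, preserve `S.O`, commute with the reduction)
with the `W`-structure `FixData2 R Γ` of `S33x/H1/LatticeFixed2` and `F` spanned by its `Γ`-fixed
elements.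

* `exists_fixed_lift_res` : every element of `S.O` has a `Γ`-FIXED element of `S.O` with the same
  reduction;
* `exists_fixed_normalise` : a fixed unit `w` of `S.O` whose reduction is the `m`-th power of the
  reduction of a unit of `S.O` becomes a fixed `UnitOne` function after division by the `m`-th
  power of a FIXED unit;
* `exists_fixed_cechDatum` : a Cech datum of a `Γ`-stable divisor can be replaced by one whose four
  trivialisations are `Γ`-fixed.
-/

set_option autoImplicit false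
set_option linter.unusedSectionVars false
set_option linter.style.haveILetI false

noncomputable section

namespace Fermat.Agent.S40x.R2.AS.FixedDatum

open AlgebraicCurve IsLocalRing Module
open Fermat.Agent.Gateway.C0 Fermat.Agent.S34x Fermat.Agent.S34x.C0two Fermat.Agent.S34x.Lattice2
open Fermat.Agent.S19x.Geo.LatticeFixed
open Fermat.Agent.S33x.H1.LatticeFixed2
open Fermat.Agent.S33x.Cech Fermat.Agent.S33x.Cech.Datum Fermat.Agent.S33x.Cech.GalDatumCore

variable {K : Type*} [Field K] {A : ValuationSubring K} {F : Type*} [Field F] [Algebra K F]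
  {S : SmallRing F} {k κ : Type*} [Field k] [CommRing κ] [Algebra k κ]
  {R : RedSetup2 A S k κ} {Γ : Set (SemilinearAut K F)}

/-- the `K`-span of finitely many fixed elements is `Γ`-stable -/
theorem smul_mem_span_fixed {ι : Type*} (t : Finset ι) (e : ι → F) (he : ∀ i ∈ t, IsFixed Γ (e i))
    (s : SemilinearAut K F) (hs : s ∈ Γ) {f : F}
    (hf : f ∈ Submodule.span K ((fun i => e i) '' (t : Set ι))) :
    s • f ∈ Submodule.span K ((fun i => e i) '' (t : Set ι)) := by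
  induction hf using Submodule.span_induction with
  | mem x hx =>
    obtain ⟨i, hi, rfl⟩ := hx
    rw [he i hi s hs]
    exact Submodule.subset_span ⟨i, hi, rfl⟩
  | zero => rw [smul_zero]; exact Submodule.zero_mem _
  | add x y _ _ hx hy => rw [smul_add]; exact Submodule.add_mem _ hx hy
  | smul c x _ hx =>
    rw [smul_smul_semilinear]
    exact Submodule.smul_mem _ _ hx

/-- **Fixed lift of a reduction.**  Every element of `S.O` has a `Γ`-fixed element of `S.O` with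
the same reduction. -/
theorem exists_fixed_lift_res (hD : FixData2 R Γ)
    (hF : Submodule.span K {f : F | IsFixed Γ f} = ⊤)
    (hcart : ∀ V : Submodule K F, FiniteDimensional K V → (R.lat V).FG)
    {f : F} (hf : f ∈ S.O) :
    ∃ (g : F) (hg : g ∈ S.O), IsFixed Γ g ∧ R.res ⟨g, hg⟩ = R.res ⟨f, hf⟩ := by
  classical
  have hfs : f ∈ Submodule.span K {f : F | IsFixed Γ f} := by rw [hF]; trivial
  obtain ⟨t, ht, hft⟩ := Submodule.mem_span_finite_of_mem_span hfs
  set V : Submodule K F := Submodule.span K ((fun x : F => x) '' (t : Set F)) with hV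
  have hfV : f ∈ V := by
    rw [hV, Set.image_id']
    exact hft
  haveI : FiniteDimensional K V := by
    rw [hV]
    exact FiniteDimensional.span_of_finite K (Set.Finite.image _ t.finite_toSet)
  have hstab : ∀ s ∈ Γ, ∀ x ∈ V, s • x ∈ V := fun s hs x hx =>
    smul_mem_span_fixed t (fun x : F => x) (fun i hi => ht hi) s hs hx
  have hVfix : V ≤ Submodule.span K {x | x ∈ V ∧ IsFixed Γ x} :=
    le_of_eq (span_fixed_of_stable hF V hstab).symm
  obtain ⟨g, hg, -, hgfix, hres⟩ := exists_fixed_lift2 hD V (hcart V inferInstance) hVfix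
    (y := R.res ⟨f, hf⟩) ⟨f, hf, hfV, rfl⟩
  exact ⟨g, hg, hgfix, hres⟩

/-- **Normalisation by a fixed unit.**  `hinv`: an element of `S.O` with invertible reduction is a
unit of `S.O` (true for an intersection of valuation rings with `res` the product of the residue
maps). -/
theorem exists_fixed_normalise [Nontrivial κ] (hD : FixData2 R Γ)
    (hF : Submodule.span K {f : F | IsFixed Γ f} = ⊤)
    (hcart : ∀ V : Submodule K F, FiniteDimensional K V → (R.lat V).FG)
    (hinv : ∀ (x : F) (hx : x ∈ S.O), IsUnit (R.res ⟨x, hx⟩) → x⁻¹ ∈ S.O)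
    (m : ℕ) {w g' : F} (hw : w ∈ S.O) (hg' : g' ∈ S.O) (hg'i : g'⁻¹ ∈ S.O) (hg'0 : g' ≠ 0)
    (hres : R.res ⟨w, hw⟩ = R.res ⟨g', hg'⟩ ^ m) :
    ∃ (g : F) (hg : g ∈ S.O), g ≠ 0 ∧ g⁻¹ ∈ S.O ∧ IsFixed Γ g ∧
      R.res ⟨g, hg⟩ = R.res ⟨g', hg'⟩ ∧
      ∃ hwg : w * (g⁻¹) ^ m ∈ S.O, R.res ⟨w * (g⁻¹) ^ m, hwg⟩ = 1 := by
  obtain ⟨g, hg, hgfix, hgres⟩ := exists_fixed_lift_res hD hF hcart hg'
  have hunit' : IsUnit (R.res ⟨g', hg'⟩) := by
    have h1 : (⟨g', hg'⟩ : S.O) * ⟨g'⁻¹, hg'i⟩ = 1 := Subtype.ext (mul_inv_cancel₀ hg'0)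
    have h2 := congrArg R.res h1
    rw [map_mul, map_one] at h2
    exact IsUnit.of_mul_eq_one _ h2
  have hunit : IsUnit (R.res ⟨g, hg⟩) := hgres ▸ hunit'
  have hgi : g⁻¹ ∈ S.O := hinv g hg hunit
  have hg0 : g ≠ 0 := by
    rintro rfl
    have h0 : (⟨0, hg⟩ : S.O) = 0 := rfl
    rw [h0, map_zero] at hunit
    exact not_isUnit_zero hunit
  refine ⟨g, hg, hg0, hgi, hgfix, hgres, S.O.mul_mem hw (S.O.pow_mem hgi m), ?_⟩
  have h1 : (⟨g, hg⟩ : S.O) * ⟨g⁻¹, hgi⟩ = 1 := Subtype.ext (mul_inv_cancel₀ hg0)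
  have h2 := congrArg R.res h1
  rw [map_mul, map_one] at h2
  have h3 : (⟨w * (g⁻¹) ^ m, S.O.mul_mem hw (S.O.pow_mem hgi m)⟩ : S.O)
      = ⟨w, hw⟩ * ⟨g⁻¹, hgi⟩ ^ m := rfl
  rw [h3, map_mul, map_pow, hres, ← hgres, ← mul_pow, h2, one_pow]

/-! ### fixed Cech data -/

section datum

variable {t : F} {Dt : Divisor K F}

/-- a section of `Lam(E; a, b)` reducing to `1` can be replaced by a FIXED one, if `E` is
`Γ`-stable. -/
theorem exists_fixed_resOne (hD : FixData2 R Γ)
    (hF : Submodule.span K {f : F | IsFixed Γ f} = ⊤)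
    (hcart : ∀ V : Submodule K F, FiniteDimensional K V → (R.lat V).FG)
    (hgood : ∀ g ∈ Γ, IsGood R t g) (hDt : ∀ v : Place K F, Dt v = v.ord t)
    {E : Divisor K F} (hE : ∀ g ∈ Γ, g • E = E) {a b : ℕ}
    [FiniteDimensional K ((TwoCharts.ofDivisor Dt).LM E a b)]
    {x : F} (hx : x ∈ LamD R Dt E a b) (h1 : ResOne R x) :
    ∃ y : F, y ∈ LamD R Dt E a b ∧ ResOne R y ∧ IsFixed Γ y := by
  let V : Submodule K F := (TwoCharts.ofDivisor Dt).LM E a b
  haveI : FiniteDimensional K V := inferInstanceAs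
    (FiniteDimensional K ((TwoCharts.ofDivisor Dt).LM E a b))
  have hstab : ∀ s ∈ Γ, ∀ f ∈ V, s • f ∈ V := fun s hs f hf => by
    have h := smul_mem_LM s (hgood s hs).smul_t hDt hf
    rwa [hE s hs] at h
  have hVfix : V ≤ Submodule.span K {f | f ∈ V ∧ IsFixed Γ f} :=
    le_of_eq (span_fixed_of_stable hF V hstab).symm
  obtain ⟨y, hyO, hyV, hyfix, hyres⟩ := exists_fixed_lift2 hD V (hcart V inferInstance) hVfix
    (y := (1 : κ)) ⟨x, hx.2, hx.1, h1.res_eq hx.2⟩
  exact ⟨y, ⟨hyV, hyO⟩, ⟨hyO, hyres⟩, hyfix⟩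

/-- **Fixed Cech datum.**  A Cech datum of a `Γ`-stable divisor can be replaced by one whose four
trivialisations are `Γ`-fixed. -/
theorem exists_fixed_cechDatum (hD : FixData2 R Γ)
    (hF : Submodule.span K {f : F | IsFixed Γ f} = ⊤)
    (hcart : ∀ V : Submodule K F, FiniteDimensional K V → (R.lat V).FG)
    (hgood : ∀ g ∈ Γ, IsGood R t g) (hDt : ∀ v : Place K F, Dt v = v.ord t)
    (hfin : ∀ (E : Divisor K F) (a b : ℕ),
      FiniteDimensional K ((TwoCharts.ofDivisor Dt).LM E a b))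
    {D : Divisor K F} (hDfix : ∀ g ∈ Γ, g • D = D) (d : CechDatum R Dt D) :
    ∃ d' : CechDatum R Dt D, IsFixed Γ d'.hoo ∧ IsFixed Γ d'.h0 ∧ IsFixed Γ d'.hoo' ∧
      IsFixed Γ d'.h0' := by
  have hDfix' : ∀ g ∈ Γ, g • (-D) = -D := fun g hg => by rw [smul_neg, hDfix g hg]
  obtain ⟨b, hb⟩ := d.hoo_mem
  obtain ⟨a, ha⟩ := d.h0_mem
  obtain ⟨b', hb'⟩ := d.hoo'_mem
  obtain ⟨a', ha'⟩ := d.h0'_mem
  haveI := hfin D 0 b
  haveI := hfin D a 0
  haveI := hfin (-D) 0 b'
  haveI := hfin (-D) a' 0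
  obtain ⟨y1, hy1, hy1r, hy1f⟩ := exists_fixed_resOne hD hF hcart hgood hDt hDfix hb d.res_hoo
  obtain ⟨y2, hy2, hy2r, hy2f⟩ := exists_fixed_resOne hD hF hcart hgood hDt hDfix ha d.res_h0
  obtain ⟨y3, hy3, hy3r, hy3f⟩ := exists_fixed_resOne hD hF hcart hgood hDt hDfix' hb' d.res_hoo'
  obtain ⟨y4, hy4, hy4r, hy4f⟩ := exists_fixed_resOne hD hF hcart hgood hDt hDfix' ha' d.res_h0'
  exact ⟨{ hoo := y1, h0 := y2, hoo' := y3, h0' := y4
           hoo_mem := ⟨b, hy1⟩, h0_mem := ⟨a, hy2⟩, hoo'_mem := ⟨b', hy3⟩, h0'_mem := ⟨a', hy4⟩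
           res_hoo := hy1r, res_h0 := hy2r, res_hoo' := hy3r, res_h0' := hy4r },
    hy1f, hy2f, hy3f, hy4f⟩

end datum

end Fermat.Agent.S40x.R2.AS.FixedDatum

end
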