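import Mathlib

/-!
# P-S44/S40, block C3, leaf C3-AS-RAT, file 2 (helper33): a fixed Kummer function

Field-theoretic Hilbert 90 with leading-coefficient normalisation (the mechanism of C3-DESC,
without the cover).  `M` a field (for us: the modular function field inside `LaurentSeries Qbar`),
`L ≤ M` the constants, `lc : M →*₀ M` the leading coefficient, `act : G →* (M ≃+* M)` a group
acting by ring automorphisms commuting with `lc`, `ζ ∈ L` a primitive `p`-th root of unity.

`exists_fixed_mul_pow` : if `f ≠ 0` is normalised (`lc f = 1`), fixed by a normal subgroup `G'`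
of finite index, and `act τ f = c * f * k ^ p` with `c ∈ L` for every `τ` (`f` is a Kummer function
of a `G`-invariant class), then there is `g ≠ 0` with `f * g ^ p` fixed by `G`.
-/

set_option autoImplicit false

namespace Fermat.Agent.S40x.R2.AS.FixedKummer

open Finset

/-- leading-coefficient data on a field `M` with a group action. -/
structure NormData (M : Type*) [Field M] (G : Type*) [Group G] (p : ℕ) where
  L : Subfield M
  lc : M →*₀ M
  lc_mem : ∀ m, lc m ∈ L
  lc_const : ∀ c ∈ L, lc c = c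
  act : G →* (M ≃+* M)
  act_lc : ∀ τ m, lc (act τ m) = act τ (lc m)
  ζ : M
  hζ : IsPrimitiveRoot ζ p
  hζL : ζ ∈ L

variable {M : Type*} [Field M] {G : Type*} [Group G] {p : ℕ}

namespace NormData

variable (D : NormData M G p)

theorem lc_ne_zero {m : M} (hm : m ≠ 0) : D.lc m ≠ 0 := (map_ne_zero D.lc).mpr hm

theorem ne_zero_of_lc {m : M} (hm : D.lc m = 1) : m ≠ 0 := by
  rintro rfl
  rw [map_zero] at hm
  exact zero_ne_one hm

theorem lc_lc (m : M) : D.lc (D.lc m) = D.lc m := D.lc_const _ (D.lc_mem m)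

/-- normalisation of a nonzero element -/
theorem lc_div_lc {m : M} (hm : m ≠ 0) : D.lc (m / D.lc m) = 1 := by
  rw [map_div₀, D.lc_lc, div_self (D.lc_ne_zero hm)]

/-- the `p`-th power map is injective on normalised elements -/
theorem eq_of_pow_eq (hp : 0 < p) {a b : M} (ha : D.lc a = 1) (hb : D.lc b = 1)
    (h : a ^ p = b ^ p) : a = b := by
  have hb0 : b ≠ 0 := D.ne_zero_of_lc hb
  have h1 : (a / b) ^ p = 1 := by rw [div_pow, h, div_self (pow_ne_zero _ hb0)]
  have : NeZero p := ⟨hp.ne'⟩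
  obtain ⟨i, -, hi⟩ := D.hζ.eq_pow_of_pow_eq_one h1
  have h2 : D.lc (a / b) = 1 := by rw [map_div₀, ha, hb, div_one]
  have h3 : D.lc (D.ζ ^ i) = D.ζ ^ i := D.lc_const _ (D.L.pow_mem D.hζL i)
  rw [← hi, h3] at h2
  rw [h2] at hi
  field_simp at hi
  exact hi.symm

theorem act_lc_one (τ : G) {m : M} (hm : D.lc m = 1) : D.lc (D.act τ m) = 1 := by
  rw [D.act_lc, hm, map_one]

theorem act_mul_apply (σ τ : G) (m : M) : D.act (σ * τ) m = D.act σ (D.act τ m) := by
  rw [map_mul]; rfl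

theorem act_one_apply (m : M) : D.act 1 m = m := by
  rw [map_one]; rfl

theorem act_inv_apply (σ : G) (m : M) : D.act σ⁻¹ (D.act σ m) = m := by
  rw [← D.act_mul_apply, inv_mul_cancel, D.act_one_apply]

theorem act_apply_inv (σ : G) (m : M) : D.act σ (D.act σ⁻¹ m) = m := by
  rw [← D.act_mul_apply, mul_inv_cancel, D.act_one_apply]

end NormData

/-- **Hilbert 90 for normalised Kummer functions.** -/
theorem exists_fixed_mul_pow (D : NormData M G p) (hp : p.Prime) {f : M} (hf0 : f ≠ 0)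
    (hlcf : D.lc f = 1)
    (G' : Subgroup G) [G'.Normal] [G'.FiniteIndex] (hG' : ∀ ρ ∈ G', D.act ρ f = f)
    (hii : ∀ τ : G, ∃ k c : M, k ≠ 0 ∧ c ∈ D.L ∧ D.act τ f = c * f * k ^ p) :
    ∃ g : M, g ≠ 0 ∧ ∀ τ, D.act τ (f * g ^ p) = f * g ^ p := by
  classical
  have hp0 : 0 < p := hp.pos
  -- the normalised `p`-th roots `ε τ` of `act τ f / f`
  choose k c hk0 hcL hkc using hii
  set ε : G → M := fun τ => k τ / D.lc (k τ) with hε
  have hεlc : ∀ τ, D.lc (ε τ) = 1 := fun τ => D.lc_div_lc (hk0 τ)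
  have hε0 : ∀ τ, ε τ ≠ 0 := fun τ => D.ne_zero_of_lc (hεlc τ)
  have hεf : ∀ τ, D.act τ f = f * ε τ ^ p := by
    intro τ
    have h1 : D.lc (D.act τ f) = 1 := D.act_lc_one τ hlcf
    rw [hkc τ, map_mul, map_mul, map_pow, hlcf, mul_one, D.lc_const _ (hcL τ)] at h1
    have hl0 : D.lc (k τ) ≠ 0 := D.lc_ne_zero (hk0 τ)
    have hc : c τ = (D.lc (k τ) ^ p)⁻¹ := eq_inv_of_mul_eq_one_left h1
    rw [hkc τ, hc, hε, div_pow]
    field_simp
  -- cocycle relation
  have hcoc : ∀ σ τ, ε (σ * τ) = ε σ * D.act σ (ε τ) := by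
    intro σ τ
    apply D.eq_of_pow_eq hp0 (hεlc _)
    · rw [map_mul, hεlc, D.act_lc_one σ (hεlc τ), one_mul]
    · have h1 : D.act (σ * τ) f = f * ε (σ * τ) ^ p := hεf _
      have h2 : D.act (σ * τ) f = f * (ε σ * D.act σ (ε τ)) ^ p := by
        rw [D.act_mul_apply, hεf τ, map_mul, map_pow, hεf σ, mul_pow, mul_assoc]
      exact mul_left_cancel₀ hf0 (h1.symm.trans h2)
  have hε1 : ∀ ρ, D.act ρ f = f → ε ρ = 1 := by
    intro ρ hρ
    apply D.eq_of_pow_eq hp0 (hεlc ρ) (map_one _)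
    have h1 := hεf ρ
    rw [hρ] at h1
    rw [one_pow]
    exact (mul_left_cancel₀ hf0 (by rw [mul_one]; exact h1)).symm
  -- the fixed field `E` of `G'`, and the kernel `N` of the action on it
  let E : Subfield M :=
    { carrier := {b | ∀ ρ ∈ G', D.act ρ b = b}
      mul_mem' := fun ha hb ρ hρ => by rw [map_mul, ha ρ hρ, hb ρ hρ]
      one_mem' := fun ρ _ => map_one _
      add_mem' := fun ha hb ρ hρ => by rw [map_add, ha ρ hρ, hb ρ hρ]
      zero_mem' := fun ρ _ => map_zero _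
      neg_mem' := fun ha ρ hρ => by rw [map_neg, ha ρ hρ]
      inv_mem' := fun a ha ρ hρ => by rw [map_inv₀, ha ρ hρ] }
  have hE : ∀ b, b ∈ E ↔ ∀ ρ ∈ G', D.act ρ b = b := fun b => Iff.rfl
  have hfE : f ∈ E := hG'
  -- `E` is `G`-stable
  have hEstab : ∀ τ : G, ∀ b ∈ E, D.act τ b ∈ E := by
    intro τ b hb ρ hρ
    have h1 : τ⁻¹ * ρ * τ ∈ G' := by
      have := (inferInstance : G'.Normal).conj_mem ρ hρ τ⁻¹
      simpa using this
    have h2 := hb _ h1
    have h3 : D.act ρ (D.act τ b) = D.act τ (D.act (τ⁻¹ * ρ * τ) b) := by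
      rw [← D.act_mul_apply, ← D.act_mul_apply]
      congr 2
      group
    rw [h3, h2]
  let N : Subgroup G :=
    { carrier := {τ | ∀ b ∈ E, D.act τ b = b}
      mul_mem' := fun {a b} ha hb x hx => by
        show D.act (a * b) x = x
        rw [D.act_mul_apply, hb x hx, ha x hx]
      one_mem' := fun x _ => D.act_one_apply x
      inv_mem' := fun {a} ha x hx => by
        show D.act a⁻¹ x = x
        have h1 : D.act a x = x := ha x hx
        conv_lhs => rw [← h1]
        exact D.act_inv_apply a x }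
  have hN : ∀ τ, τ ∈ N ↔ ∀ b ∈ E, D.act τ b = b := fun τ => Iff.rfl
  have hG'N : G' ≤ N := fun ρ hρ b hb => hb ρ hρ
  have hNfi : N.FiniteIndex := Subgroup.finiteIndex_of_le hG'N
  have hNn : N.Normal := by
    refine ⟨fun n hn g b hb => ?_⟩
    have h1 : D.act g⁻¹ b ∈ E := hEstab _ b hb
    have h2 : D.act n (D.act g⁻¹ b) = D.act g⁻¹ b := hn _ h1
    show D.act (g * n * g⁻¹) b = b
    rw [D.act_mul_apply, D.act_mul_apply, h2, D.act_apply_inv]
  have hεN : ∀ ν ∈ N, ε ν = 1 := fun ν hν => hε1 ν (hν f hfE)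
  -- the terms of the Poincare series
  letI : Fintype (G ⧸ N) := Subgroup.fintypeQuotientOfFiniteIndex
  have hT : ∀ (b : M), b ∈ E → ∀ τ ν, ν ∈ N →
      ε (τ * ν) * D.act (τ * ν) b = ε τ * D.act τ b := by
    intro b hb τ ν hν
    rw [hcoc, hεN ν hν, map_one, mul_one, D.act_mul_apply, hν b hb]
  let T : M → G ⧸ N → M := fun b q => ε q.out * D.act q.out b
  have hTout : ∀ b ∈ E, ∀ τ : G, T b (QuotientGroup.mk τ) = ε τ * D.act τ b := by
    intro b hb τ
    have h1 : (QuotientGroup.mk τ : G ⧸ N).out = τ * (τ⁻¹ * (QuotientGroup.mk τ : G ⧸ N).out) := by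
      group
    have h2 : τ⁻¹ * (QuotientGroup.mk τ : G ⧸ N).out ∈ N := by
      rw [← QuotientGroup.eq]
      exact (QuotientGroup.out_eq' _).symm
    show ε _ * D.act _ b = _
    rw [h1]
    exact hT b hb τ _ h2
  -- distinct cosets give distinct characters of `Eˣ`
  let χ : G ⧸ N → (E →* M) := fun q =>
    ((D.act q.out : M ≃+* M) : M →* M).comp (E.subtype : E →* M)
  have hχ : Function.Injective χ := by
    intro q q' h
    have h1 : ∀ b ∈ E, D.act q.out b = D.act q'.out b := fun b hb =>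
      DFunLike.congr_fun h ⟨b, hb⟩
    have h2 : q.out⁻¹ * q'.out ∈ N := by
      intro b hb
      show D.act (q.out⁻¹ * q'.out) b = b
      rw [D.act_mul_apply, ← h1 b hb, D.act_inv_apply]
    rw [← QuotientGroup.out_eq' q, ← QuotientGroup.out_eq' q']
    exact QuotientGroup.eq.mpr h2
  have hli : LinearIndependent M (fun q : G ⧸ N => (χ q : E → M)) :=
    (linearIndependent_monoidHom E M).comp χ hχ
  -- choose `b` with nonvanishing Poincare series
  obtain ⟨b, hbE, hgb⟩ : ∃ b ∈ E, ∑ q : G ⧸ N, T b q ≠ 0 := by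
    by_contra hcon
    push Not at hcon
    have h0 : ∑ q : G ⧸ N, ε q.out • (χ q : E → M) = 0 := by
      funext b
      rw [Finset.sum_apply]
      exact hcon b b.2
    have := Fintype.linearIndependent_iff.mp hli (fun q => ε q.out) h0
    obtain ⟨q⟩ : Nonempty (G ⧸ N) := ⟨QuotientGroup.mk 1⟩
    exact hε0 _ (this q)
  set g : M := ∑ q : G ⧸ N, T b q with hg
  -- transformation of the series
  have hact : ∀ σ : G, D.act σ g = (ε σ)⁻¹ * g := by
    intro σ
    rw [hg, map_sum, Finset.mul_sum]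
    have h1 : ∀ q : G ⧸ N, D.act σ (T b q) = (ε σ)⁻¹ * T b (σ • q) := by
      intro q
      have hq : σ • q = QuotientGroup.mk (σ * q.out) := by
        conv_lhs => rw [← QuotientGroup.out_eq' q]
        rfl
      rw [hq, hTout b hbE]
      show D.act σ (ε q.out * D.act q.out b) = _
      rw [map_mul, hcoc, D.act_mul_apply]
      field_simp [hε0 σ]
    rw [Finset.sum_congr rfl fun q _ => h1 q]
    exact (Equiv.sum_comp (MulAction.toPerm σ : G ⧸ N ≃ G ⧸ N)
      (fun q => (ε σ)⁻¹ * T b q))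
  refine ⟨g, hgb, fun τ => ?_⟩
  rw [map_mul, map_pow, hεf τ, hact τ, mul_pow, inv_pow]
  field_simp [hε0 τ]

end Fermat.Agent.S40x.R2.AS.FixedKummer
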