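/-
P-S44/S40, block C3, AS/ET seam item (2) (helper32): a `G1`-fixed element of a chart ring is
INTEGRAL over the inertia-fixed part of the chart ring.

Abstract part (Mathlib only): a group `M` acting on a commutative ring `F` by ring automorphisms,
`Γ ⊆ M` closed under multiplication, `B` a `Γ`-stable subring, `x ∈ B` with finite `Γ`-orbit
containing `x`.  The orbit polynomial `∏_{y ∈ Γ x} (X - y)` is monic, kills `x`, and its
coefficients lie in `B` and are `Γ`-fixed (`exists_monic_fixed_poly`); hence `x` is integral over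
every ring `R → F` whose image contains the `Γ`-fixed elements of `B` (`isIntegral_of_finite_orbit`,
`isIntegral_subring_of_finite_orbit`).  No valuations, no isotypic components.

Instance part (vocabulary `InstW.fixedAlg`, `G1Act` of `S40x/W/G1`, `inertiaAct`): for a function
`f` of level `N` fixed by `G1 = {τ ∈ I : τ ζ = ζ}`, `σ • f` (`σ ∈ I`) depends only on `σ ζ`
(`smul_eq_of_apply_zeta_eq`), so the inertia orbit of `f` is finite (`finite_orbit_of_fixed_G1Act`),
and for every inertia-stable `P`-subalgebra `B` of the function field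
`x ∈ fixedAlg (G1Act P ζ N) B → IsIntegral (fixedAlg (inertiaAct P N) B) x`
(`isIntegral_fixedAlg_G1Act`).

Use (seam item 2 of note 2633, (a) of note 2647): `G_s ∈ fixedAlg G1 (BooAlg C)` is integral over
`fixedAlg I (BooAlg C) ≤ R_s`, so `θ = (z/h_s - 1)/π`, a root of the monic Artin-Schreier-Kummer
polynomial with coefficients in `ℤ[ζ][G_s]`, is integral over `R_s`.
-/
import Mathlib
import Fermat.Agent.S40x.W.G1
import Fermat.Agent.S33x.W.InstW

set_option autoImplicit false
set_option linter.unusedSectionVars false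
set_option linter.unusedVariables false

noncomputable section

namespace Fermat.Agent.S40x.R2.AS.SeamIntegral

open Polynomial

/-! ### Abstract part: the orbit polynomial -/

section Abstract

variable {M F : Type*} [Group M] [CommRing F] [MulSemiringAction M F]

/-- **The orbit polynomial.** -/
theorem exists_monic_fixed_poly (Γ : Set M) (hmul : ∀ s ∈ Γ, ∀ t ∈ Γ, s * t ∈ Γ)
    (B : Subring F) (hB : ∀ s ∈ Γ, ∀ y ∈ B, s • y ∈ B) {x : F} (hx : x ∈ B)
    (h1 : ∃ s ∈ Γ, s • x = x) (hfin : {y : F | ∃ s ∈ Γ, s • x = y}.Finite) :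
    ∃ Q : F[X], Q.Monic ∧ Q.eval x = 0 ∧
      ∀ n, Q.coeff n ∈ B ∧ ∀ s ∈ Γ, s • Q.coeff n = Q.coeff n := by
  classical
  set T : Finset F := hfin.toFinset with hT
  have hmemT : ∀ y, y ∈ T ↔ ∃ s ∈ Γ, s • x = y := fun y => by
    rw [hT, Set.Finite.mem_toFinset]
    exact Iff.rfl
  have hTB : ∀ y ∈ T, y ∈ B := by
    intro y hy
    obtain ⟨s, hs, rfl⟩ := (hmemT y).mp hy
    exact hB s hs x hx
  set Q : F[X] := ∏ y ∈ T, (X - C y) with hQ
  refine ⟨Q, monic_prod_of_monic _ _ (fun y _ => monic_X_sub_C y), ?_, fun n => ⟨?_, ?_⟩⟩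
  · rw [hQ, eval_prod]
    refine Finset.prod_eq_zero ((hmemT x).mpr h1) ?_
    rw [eval_sub, eval_X, eval_C, sub_self]
  · -- coefficients in `B`
    have hmap : Q = (∏ y ∈ T.attach, (X - C (⟨y.1, hTB y.1 y.2⟩ : B))).map B.subtype := by
      rw [Polynomial.map_prod, hQ, ← Finset.prod_attach]
      refine Finset.prod_congr rfl fun y _ => ?_
      rw [Polynomial.map_sub, map_X, map_C]
      rfl
    rw [hmap, coeff_map]
    exact Subtype.coe_prop _
  · -- coefficients fixed
    intro s hs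
    set φ : F →+* F := MulSemiringAction.toRingHom M F s with hφ
    have hφinj : Function.Injective φ := MulAction.injective s
    have himg : T.image φ = T := by
      refine Finset.eq_of_subset_of_card_le ?_ ?_
      · intro y hy
        obtain ⟨y', hy', rfl⟩ := Finset.mem_image.mp hy
        obtain ⟨t, ht, rfl⟩ := (hmemT y').mp hy'
        refine (hmemT _).mpr ⟨s * t, hmul s hs t ht, ?_⟩
        rw [mul_smul]
        rfl
      · rw [Finset.card_image_of_injective _ hφinj]
    have hmapQ : Q.map φ = Q := by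
      rw [hQ, Polynomial.map_prod]
      conv_rhs => rw [← himg]
      rw [Finset.prod_image (fun a _ b _ h => hφinj h)]
      refine Finset.prod_congr rfl fun y _ => ?_
      rw [Polynomial.map_sub, map_X, map_C]
    have h2 : φ (Q.coeff n) = Q.coeff n := by
      rw [← coeff_map, hmapQ]
    exact h2

/-- a root of a monic polynomial whose coefficients come from `R` is integral over `R`. -/
theorem isIntegral_of_coeff_mem_range {R : Type*} [CommRing R] [Algebra R F] {x : F} {Q : F[X]}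
    (hQ : Q.Monic) (hx : Q.eval x = 0) (hr : ∀ n, Q.coeff n ∈ Set.range (algebraMap R F)) :
    IsIntegral R x := by
  rcases subsingleton_or_nontrivial F with hF | hF
  · rw [Subsingleton.elim x 0]
    exact isIntegral_zero
  · have hl : Q ∈ lifts (algebraMap R F) := (lifts_iff_coeff_lifts Q).mpr hr
    obtain ⟨q, hq, -, hqm⟩ := lifts_and_degree_eq_and_monic hl hQ
    refine ⟨q, hqm, ?_⟩
    rw [eval₂_eq_eval_map, hq, hx]

/-- **Integrality over the fixed part**, general form: `x` is integral over every ring `R → F`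
whose image contains the `Γ`-fixed elements of `B`. -/
theorem isIntegral_of_finite_orbit (Γ : Set M) (hmul : ∀ s ∈ Γ, ∀ t ∈ Γ, s * t ∈ Γ)
    (B : Subring F) (hB : ∀ s ∈ Γ, ∀ y ∈ B, s • y ∈ B) {x : F} (hx : x ∈ B)
    (h1 : ∃ s ∈ Γ, s • x = x) (hfin : {y : F | ∃ s ∈ Γ, s • x = y}.Finite)
    {R : Type*} [CommRing R] [Algebra R F]
    (hR : ∀ y ∈ B, (∀ s ∈ Γ, s • y = y) → y ∈ Set.range (algebraMap R F)) :
    IsIntegral R x := by
  obtain ⟨Q, hQ, hQx, hcoeff⟩ := exists_monic_fixed_poly Γ hmul B hB hx h1 hfin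
  exact isIntegral_of_coeff_mem_range hQ hQx fun n => hR _ (hcoeff n).1 (hcoeff n).2

/-- **Integrality over the fixed part**, subring form. -/
theorem isIntegral_subring_of_finite_orbit (Γ : Set M) (hmul : ∀ s ∈ Γ, ∀ t ∈ Γ, s * t ∈ Γ)
    (B : Subring F) (hB : ∀ s ∈ Γ, ∀ y ∈ B, s • y ∈ B) {x : F} (hx : x ∈ B)
    (h1 : ∃ s ∈ Γ, s • x = x) (hfin : {y : F | ∃ s ∈ Γ, s • x = y}.Finite)
    (S : Subring F) (hS : ∀ y ∈ B, (∀ s ∈ Γ, s • y = y) → y ∈ S) :
    IsIntegral S x :=
  isIntegral_of_finite_orbit Γ hmul B hB hx h1 hfin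
    fun y hy hfix => ⟨⟨y, hS y hy hfix⟩, rfl⟩

end Abstract

/-! ### Instance part: `G1 ≤ I` acting on the function field of level `N` -/

section Instance

open ModularCurve AlgebraicCurve
open Fermat.Agent.S19x.Geo.LatticeFixed (IsFixed IsFixedK)
open Fermat.Agent.S33x.H1.FixData2Inst
open Fermat.Agent.S33x.W.InstW (fixedAlg mem_fixedAlg)
open Fermat.Agent.S40x.W.G1

local notation "Qbar" => AlgebraicClosure ℚ
local notation "Γℚ" => (AlgebraicClosure ℚ ≃ₐ[ℚ] AlgebraicClosure ℚ)

variable {P : ValuationSubring Qbar} {p : ℕ} {ζ : Qbar} {N : ℕ}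

/-- For a `G1`-fixed function `f`, `σ • f` (`σ` in the inertia group) depends only on `σ ζ`. -/
theorem smul_eq_of_apply_zeta_eq
    {f : laurentBaseChange Qbar (modularFunctionFieldFull N)} (hf : IsFixed (G1Act P ζ N) f)
    {σ σ' : Γℚ} (hσ : σ ∈ P.inertiaSubgroupIn ℚ) (hσ' : σ' ∈ P.inertiaSubgroupIn ℚ)
    (h : σ ζ = σ' ζ) :
    arithmeticGalois (L := Qbar) (modularFunctionFieldFull N) σ • f =
      arithmeticGalois (L := Qbar) (modularFunctionFieldFull N) σ' • f := by
  have hmem : σ'⁻¹ * σ ∈ G1 P ζ := by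
    refine ⟨mul_mem (inv_mem hσ') hσ, ?_⟩
    show σ'⁻¹ (σ ζ) = ζ
    rw [h]
    show (σ'⁻¹ * σ') ζ = ζ
    rw [inv_mul_cancel]
    rfl
  have h3 : arithmeticGalois (L := Qbar) (modularFunctionFieldFull N) (σ'⁻¹ * σ) • f = f :=
    hf _ ⟨_, hmem, rfl⟩
  have h4 : σ = σ' * (σ'⁻¹ * σ) := by rw [mul_inv_cancel_left]
  conv_lhs => rw [h4, map_mul, mul_smul, h3]

/-- **The inertia orbit of a `G1`-fixed function is finite.** -/
theorem finite_orbit_of_fixed_G1Act (hp : p.Prime) (hζ : IsPrimitiveRoot ζ p)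
    {f : laurentBaseChange Qbar (modularFunctionFieldFull N)} (hf : IsFixed (G1Act P ζ N) f) :
    {y | ∃ s ∈ inertiaAct P N, s • f = y}.Finite := by
  classical
  refine Set.Finite.subset
    (((conjSet P p ζ).image fun t =>
      arithmeticGalois (L := Qbar) (modularFunctionFieldFull N) (lift P ζ t) • f).finite_toSet) ?_
  rintro y ⟨_, ⟨σ, hσ, rfl⟩, rfl⟩
  rw [Finset.mem_coe, Finset.mem_image]
  have hmem : σ ζ ∈ conjSet P p ζ := (mem_conjSet hp hζ).mpr ⟨σ, hσ, rfl⟩
  obtain ⟨hl1, hl2⟩ := lift_spec (P := P) (ζ := ζ) (t := σ ζ) ⟨σ, hσ, rfl⟩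
  exact ⟨σ ζ, hmem, smul_eq_of_apply_zeta_eq hf hl1 hσ hl2⟩

/-- **Seam item (2), consumer form**: a `G1`-fixed element of an inertia-stable `P`-subalgebra `B`
of the function field of level `N` is integral over the inertia-fixed part of `B`. -/
theorem isIntegral_fixedAlg_G1Act (hp : p.Prime) (hζ : IsPrimitiveRoot ζ p)
    {B : Subalgebra P (laurentBaseChange Qbar (modularFunctionFieldFull N))}
    (hB : ∀ s ∈ inertiaAct P N, ∀ y ∈ B, s • y ∈ B)
    {x : laurentBaseChange Qbar (modularFunctionFieldFull N)}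
    (hx : x ∈ fixedAlg (G1Act P ζ N) B) :
    IsIntegral (fixedAlg (inertiaAct P N) B) x := by
  refine isIntegral_of_finite_orbit (inertiaAct P N) ?_ B.toSubring hB hx.1 ?_
    (finite_orbit_of_fixed_G1Act hp hζ hx.2) ?_
  · rintro _ ⟨σ, hσ, rfl⟩ _ ⟨τ, hτ, rfl⟩
    exact ⟨σ * τ, mul_mem hσ hτ, map_mul _ σ τ⟩
  · exact ⟨_, ⟨1, one_mem _, rfl⟩, by rw [map_one, one_smul]⟩
  · intro y hy hfix
    exact ⟨⟨y, hy, hfix⟩, rfl⟩

end Instance

end Fermat.Agent.S40x.R2.AS.SeamIntegral
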