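/-
P-S44/S40, block C3, AS/ET seam item (1) (helper32): `1 + π^p x` is a `p`-th power in `K1`.

`P` a valuation subring of `Qbar` over the prime `p`, `ζ` a primitive `p`-th root of unity,
`π = ζ - 1`, `G1 P ζ = {τ ∈ I_P : τ ζ = ζ}` (helper3, `S40x/W/G1`), `K1 = Qbar^{G1}`.

* `exists_eq_one_add_mul_of_pow_eq` : every `p`-th root `y` of `1 + π^p x`, `x ∈ P`, is of the form
  `1 + π Y` with `Y ∈ P` (the product of the `y - ξ`, `ξ^p = 1`, is `π^p x`, and the `ξ` are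
  congruent to `1` modulo `π`);
* `apply_eq_of_pow_eq` : every `τ ∈ G1` fixing `y^p` fixes `y` (`τ y = ξ y` with `ξ^p = 1`, and an
  inertia element moves `Y = (y - 1)/π` by an element of the maximal ideal, which forces `ξ = 1`);
* `exists_fixed_root` : for `x ∈ P` fixed by `G1` there is a `G1`-fixed unit `y = 1 + π Y` of `P`
  (`Y ∈ P` fixed by `G1`) with `y^p = 1 + π^p x`.

No Hensel lemma, no expansion of `((1 + π Y)^p - 1)/π^p`.

Use (flag F1 of note 2627, seam item 1 of note 2633): if `f0' = 1 + π^p G` with `G` in the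
`G1`-fixed chart ring regular at the cusp `q = 0`, the leading coefficient `1 + π^p G(0)` of `f0'`
is `y^p`, so `f0 := f0'/y^p` is normalised, `G1`-fixed and `f0 = (1/y)^p (1 + π^p G)`.
-/
import Mathlib
import Fermat.Agent.S40x.W.G1

set_option autoImplicit false
set_option linter.unusedSectionVars false
set_option linter.unusedVariables false

noncomputable section

namespace Fermat.Agent.S40x.R2.AS.SeamRoot

open Fermat.Agent.S56x.Hens Fermat.Agent.S56x.Flat.InertiaField Fermat.Agent.S19x.Hens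
  Fermat.Agent.S19x.Hens.InertiaResidue
open Fermat.Agent.S40x.W.G1

local notation "Qbar" => AlgebraicClosure ℚ
local notation "Γℚ" => (AlgebraicClosure ℚ ≃ₐ[ℚ] AlgebraicClosure ℚ)

variable {P : ValuationSubring Qbar} {p : ℕ} {ζ : Qbar}

/-- the valuation of `ξ - 1`, `ξ^p = 1`, is at most that of `ζ - 1`. -/
theorem valuation_sub_one_le (hp : p.Prime) (hζ : IsPrimitiveRoot ζ p) {ξ : Qbar}
    (hξ : ξ ^ p = 1) : P.valuation (ξ - 1) ≤ P.valuation (ζ - 1) := by
  obtain ⟨w, hw, hwe⟩ := exists_sub_one_eq_mul hp hζ (P := P) hξ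
  rw [hwe, map_mul]
  have h1 : P.valuation w ≤ 1 := (P.valuation_le_one_iff w).mpr hw
  exact mul_le_of_le_one_right' h1

/-- **Every `p`-th root of `1 + π^p x`, `x ∈ P`, is `1 + π Y` with `Y ∈ P`.** -/
theorem exists_eq_one_add_mul_of_pow_eq (hp : p.Prime) (hP : P.LiesOverPrime p)
    (hζ : IsPrimitiveRoot ζ p) {x y : Qbar} (hx : x ∈ P)
    (hy : y ^ p = 1 + (ζ - 1) ^ p * x) : ∃ Y ∈ P, y = 1 + (ζ - 1) * Y := by
  have hπ0 : ζ - 1 ≠ 0 := sub_one_ne_zero hp hζ
  have hvπ0 : P.valuation (ζ - 1) ≠ 0 := (Valuation.ne_zero_iff _).mpr hπ0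
  -- the key inequality
  have hle : P.valuation (y - 1) ≤ P.valuation (ζ - 1) := by
    by_contra hnot
    rw [not_le] at hnot
    -- every factor has the valuation of `y - 1`
    have hfac : ∀ ξ ∈ Polynomial.nthRootsFinset p (1 : Qbar),
        P.valuation (y - ξ * 1) = P.valuation (y - 1) := by
      intro ξ hξ
      have hξp : ξ ^ p = 1 := (Polynomial.mem_nthRootsFinset hp.pos 1).mp hξ
      have h1 : y - ξ * 1 = (y - 1) - (ξ - 1) := by ring
      rw [h1]
      exact Valuation.map_sub_eq_of_lt_left _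
        (lt_of_le_of_lt (valuation_sub_one_le hp hζ hξp) hnot)
    have hprod : y ^ p - 1 ^ p = ∏ ξ ∈ Polynomial.nthRootsFinset p (1 : Qbar), (y - ξ * 1) :=
      hζ.pow_sub_pow_eq_prod_sub_mul y 1 hp.pos
    have h2 : P.valuation (y ^ p - 1 ^ p) = P.valuation (y - 1) ^ p := by
      rw [hprod, map_prod, Finset.prod_congr rfl hfac, Finset.prod_const,
        hζ.card_nthRootsFinset]
    have h3 : y ^ p - 1 ^ p = (ζ - 1) ^ p * x := by
      rw [hy, one_pow]
      ring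
    rw [h3, map_mul, map_pow] at h2
    have h4 : P.valuation (ζ - 1) ^ p * P.valuation x ≤ P.valuation (ζ - 1) ^ p :=
      mul_le_of_le_one_right' ((P.valuation_le_one_iff x).mpr hx)
    have h5 : P.valuation (ζ - 1) ^ p < P.valuation (y - 1) ^ p :=
      pow_lt_pow_left₀ hnot zero_le hp.ne_zero
    rw [h2] at h4
    exact absurd h4 (not_le.mpr h5)
  refine ⟨(y - 1) * (ζ - 1)⁻¹, ?_, ?_⟩
  · rw [← ValuationSubring.valuation_le_one_iff, map_mul, map_inv₀]
    exact mul_inv_le_one_of_le₀ hle zero_le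
  · rw [mul_comm (y - 1), ← mul_assoc, mul_inv_cancel₀ hπ0, one_mul]
    ring

/-- `1 + π Y`, `Y ∈ P`, is not in the maximal ideal. -/
theorem one_add_mul_notMem_nonunits (hp : p.Prime) (hP : P.LiesOverPrime p)
    (hζ : IsPrimitiveRoot ζ p) {Y : Qbar} (hY : Y ∈ P) : 1 + (ζ - 1) * Y ∉ P.nonunits := by
  intro h
  have h1 : (ζ - 1) * Y ∈ P.nonunits :=
    mul_mem_nonunits_right P (sub_one_mem_nonunits hp hP hζ) hY
  have h2 : P.valuation (1 + (ζ - 1) * Y) = 1 :=
    Valuation.map_one_add_of_lt _ ((ValuationSubring.mem_nonunits_iff (A := P)).mp h1)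
  have h3 := (ValuationSubring.mem_nonunits_iff (A := P)).mp h
  rw [h2] at h3
  exact lt_irrefl _ h3

/-- **Every `τ ∈ G1` fixing `y^p = 1 + π^p x` fixes `y`.** -/
theorem apply_eq_of_pow_eq (hp : p.Prime) (hP : P.LiesOverPrime p)
    (hζ : IsPrimitiveRoot ζ p) {x y : Qbar} (hx : x ∈ P)
    (hy : y ^ p = 1 + (ζ - 1) ^ p * x) {t : Γℚ} (ht : t ∈ G1 P ζ)
    (hty : t (y ^ p) = y ^ p) : t y = y := by
  obtain ⟨Y, hY, hyY⟩ := exists_eq_one_add_mul_of_pow_eq hp hP hζ hx hy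
  have hπ0 : ζ - 1 ≠ 0 := sub_one_ne_zero hp hζ
  have hy0 : y ≠ 0 := by
    intro h0
    have h1 := one_add_mul_notMem_nonunits hp hP hζ hY
    rw [← hyY, h0] at h1
    exact h1 ((ValuationSubring.mem_nonunits_iff (A := P)).mpr (by rw [map_zero]; exact zero_lt_one))
  by_contra hne
  -- `ξ := τ y / y` is a primitive `p`-th root of unity
  set ξ := t y * y⁻¹ with hξdef
  have hξp : ξ ^ p = 1 := by
    rw [hξdef, mul_pow, inv_pow, ← map_pow, hty, mul_inv_cancel₀ (pow_ne_zero p hy0)]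
  have hξ1 : ξ ≠ 1 := by
    intro h1
    apply hne
    have h2 : t y = ξ * y := by
      rw [hξdef, mul_assoc, inv_mul_cancel₀ hy0, mul_one]
    rw [h2, h1, one_mul]
  have hξprim : IsPrimitiveRoot ξ p := by
    have : Fact p.Prime := ⟨hp⟩
    have h1 := IsPrimitiveRoot.orderOf ξ
    rwa [orderOf_eq_prime hξp hξ1] at h1
  obtain ⟨w, hw, hwe⟩ := exists_sub_one_eq_mul hp hξprim (P := P) (ξ := ζ) hζ.pow_eq_one
  -- inertia moves `Y` by an element of the maximal ideal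
  have hmove : t Y - Y ∈ P.nonunits := ((mem_inertiaSubgroupIn_iff P t).mp ht.1).2 Y hY
  have hty' : t y = 1 + (ζ - 1) * t Y := by
    rw [hyY, map_add, map_one, map_mul, map_sub, map_one, ht.2]
  have h3 : (ξ - 1) * y = (ζ - 1) * (t Y - Y) := by
    have h2 : t y = ξ * y := by
      rw [hξdef, mul_assoc, inv_mul_cancel₀ hy0, mul_one]
    have h4 : (ξ - 1) * y = t y - y := by rw [h2]; ring
    rw [h4, hty']
    have h9 : (1 : Qbar) + (ζ - 1) * t Y - y = 1 + (ζ - 1) * t Y - (1 + (ζ - 1) * Y) := by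
      rw [← hyY]
    rw [h9]
    ring
  have hξ0 : ξ - 1 ≠ 0 := sub_ne_zero.mpr hξ1
  have h5 : y = w * (t Y - Y) := by
    have h6 : (ξ - 1) * y = (ξ - 1) * (w * (t Y - Y)) := by
      rw [h3, hwe]
      ring
    exact mul_left_cancel₀ hξ0 h6
  have h7 : y ∈ P.nonunits := by
    rw [h5, mul_comm]
    exact mul_mem_nonunits_right P hmove hw
  have h8 := one_add_mul_notMem_nonunits hp hP hζ hY
  rw [← hyY] at h8
  exact h8 h7

/-- **`1 + π^p x` is a `p`-th power in `K1`**: for `x ∈ P` fixed by `G1` there is a `G1`-fixed unit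
`y = 1 + π Y` of `P`, `Y ∈ P` fixed by `G1`, with `y ^ p = 1 + π^p x`. -/
theorem exists_fixed_root (hp : p.Prime) (hP : P.LiesOverPrime p)
    (hζ : IsPrimitiveRoot ζ p) {x : Qbar} (hx : x ∈ P) (hfix : ∀ t ∈ G1 P ζ, t x = x) :
    ∃ y : Qbar, y ^ p = 1 + (ζ - 1) ^ p * x ∧ y ∈ P ∧ y⁻¹ ∈ P ∧ (∀ t ∈ G1 P ζ, t y = y) ∧
      ∃ Y ∈ P, (∀ t ∈ G1 P ζ, t Y = Y) ∧ y = 1 + (ζ - 1) * Y := by
  obtain ⟨y, hy⟩ := IsAlgClosed.exists_pow_nat_eq (1 + (ζ - 1) ^ p * x) hp.pos
  obtain ⟨Y, hY, hyY⟩ := exists_eq_one_add_mul_of_pow_eq hp hP hζ hx hy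
  have hπ0 : ζ - 1 ≠ 0 := sub_one_ne_zero hp hζ
  have hπP : ζ - 1 ∈ P := P.nonunits_subset (sub_one_mem_nonunits hp hP hζ)
  have hyfix : ∀ t ∈ G1 P ζ, t y = y := by
    intro t ht
    refine apply_eq_of_pow_eq hp hP hζ hx hy ht ?_
    rw [hy, map_add, map_one, map_mul, map_pow, map_sub, map_one, ht.2, hfix t ht]
  have hyP : y ∈ P := by
    rw [hyY]
    exact P.add_mem _ _ P.one_mem (P.mul_mem _ _ hπP hY)
  have hvy : P.valuation y = 1 := by
    rw [hyY]
    refine Valuation.map_one_add_of_lt _ ?_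
    exact (ValuationSubring.mem_nonunits_iff (A := P)).mp
      (mul_mem_nonunits_right P (sub_one_mem_nonunits hp hP hζ) hY)
  refine ⟨y, hy, hyP, ?_, hyfix, Y, hY, ?_, hyY⟩
  · rw [← ValuationSubring.valuation_le_one_iff, map_inv₀, hvy, inv_one]
  · intro t ht
    have h1 : Y = (y - 1) * (ζ - 1)⁻¹ := by
      rw [hyY, add_sub_cancel_left, mul_comm (ζ - 1) Y, mul_assoc, mul_inv_cancel₀ hπ0, mul_one]
    rw [h1, map_mul, map_inv₀, map_sub, map_sub, map_one, hyfix t ht, ht.2]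

end Fermat.Agent.S40x.R2.AS.SeamRoot
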